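import Fermat.Agent.Newform.Eigen
import Fermat.Agent.GalRep.Periods

/-!
Slashing cusp forms by integral matrices: maps between levels, Hecke commutation.
-/

set_option autoImplicit false

noncomputable section

open CongruenceSubgroup ModularFormClass UpperHalfPlane ModularForm Matrix.SpecialLinearGroup
open scoped MatrixGroups

namespace Fermat.Agent.Newform

open Fermat.Agent.Hecke
open Fermat.Agent.GalRep (IMat heckeRep repGL val_repGL det_heckeRep)

/-- An integral matrix of nonzero determinant in `GL₂(ℝ)`. -/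
def intGL (A : IMat) : GL (Fin 2) ℝ :=
  if h : A.det = 0 then 1 else
    Matrix.GeneralLinearGroup.mkOfDetNeZero (A.map (Int.castRingHom ℝ))
      (by rw [← RingHom.mapMatrix_apply, ← RingHom.map_det]; simpa using h)

theorem val_intGL {A : IMat} (h : A.det ≠ 0) :
    ((intGL A : GL (Fin 2) ℝ) : Matrix (Fin 2) (Fin 2) ℝ) = A.map (Int.castRingHom ℝ) := by
  rw [intGL, dif_neg h]
  rfl

theorem intGL_mul {A B : IMat} (hA : A.det ≠ 0) (hB : B.det ≠ 0) :
    intGL (A * B) = intGL A * intGL B :=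
  Units.ext (by
    rw [Units.val_mul, val_intGL (by rw [Matrix.det_mul]; exact mul_ne_zero hA hB), val_intGL hA,
      val_intGL hB, Matrix.map_mul])

theorem intGL_coe (γ : SL(2, ℤ)) : intGL (γ : IMat) = mapGL ℝ γ :=
  Units.ext (by
    rw [val_intGL (by rw [γ.det_coe]; exact one_ne_zero), mapGL_coe_matrix]
    rfl)

theorem slash_intGL_coe (k : ℤ) (f : ℍ → ℂ) (γ : SL(2, ℤ)) :
    f ∣[k] intGL (γ : IMat) = f ∣[k] γ := by
  rw [intGL_coe]
  rfl

theorem repGL_eq_intGL {ℓ : ℕ} (hℓ : ℓ ≠ 0) (i : Option (Fin ℓ)) :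
    repGL ℓ i = intGL (heckeRep ℓ i) :=
  Units.ext (by
    rw [val_repGL hℓ, val_intGL (by rw [det_heckeRep]; exact_mod_cast hℓ)]
    rfl)

theorem heckeMatrix_eq_intGL {p : ℕ} (hp : p ≠ 0) (j : ℕ) :
    heckeMatrix p j = intGL !![1, (j : ℤ); 0, (p : ℤ)] :=
  Units.ext (by
    rw [val_intGL (by simp [Matrix.det_fin_two, hp]), val_heckeMatrix hp]
    ext a b
    fin_cases a <;> fin_cases b <;> simp)

theorem heckeDiagMatrix_eq_intGL {p : ℕ} (hp : p ≠ 0) :
    heckeDiagMatrix p = intGL !![(p : ℤ), 0; 0, 1] :=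
  Units.ext (by
    rw [val_intGL (by simp [Matrix.det_fin_two, hp]), val_heckeDiagMatrix hp]
    ext a b
    fin_cases a <;> fin_cases b <;> simp)

theorem det_intGL_pos {A : IMat} (hA : 0 < A.det) : 0 < ((intGL A).det : ℝ) := by
  rw [Matrix.GeneralLinearGroup.val_det_apply, val_intGL hA.ne', ← RingHom.mapMatrix_apply,
    ← RingHom.map_det]
  simpa using hA

theorem σ_intGL {A : IMat} (hA : 0 < A.det) : UpperHalfPlane.σ (intGL A) = .refl ℝ ℂ := by
  rw [UpperHalfPlane.σ, if_pos (det_intGL_pos hA)]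

variable {N M : ℕ} {k : ℤ}

theorem isZeroAt_slash_intGL [NeZero N] (f : CuspForm (Gamma0 N) k) (A : IMat) {c : OnePoint ℝ}
    (hc : IsCusp c 𝒮ℒ) : c.IsZeroAt (⇑f ∣[k] intGL A) k := by
  refine OnePoint.IsZeroAt.smul_iff.mp (CuspFormClass.zero_at_cusps f ?_)
  rw [Subgroup.IsArithmetic.isCusp_iff_isCusp_SL2Z]
  have hA : ∃ g : GL (Fin 2) ℚ, intGL A = Matrix.GeneralLinearGroup.map (Rat.castHom ℝ) g := by
    by_cases h : A.det = 0
    · exact ⟨1, by rw [intGL, dif_pos h, map_one]⟩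
    · refine ⟨Matrix.GeneralLinearGroup.mkOfDetNeZero (A.map (Int.castRingHom ℚ))
        (by rw [← RingHom.mapMatrix_apply, ← RingHom.map_det]; simpa using h), Units.ext ?_⟩
      rw [val_intGL h]
      ext a b
      simp
  obtain ⟨g, hg⟩ := hA
  rw [isCusp_SL2Z_iff] at hc ⊢
  obtain ⟨d, rfl⟩ := hc
  exact ⟨g • d, by rw [hg, ← Rat.coe_castHom, OnePoint.map_smul]⟩

/-- A cusp form given by a function which is an integral combination of slashes of a cusp form. -/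
def mkCusp [NeZero M] (F : ℍ → ℂ)
    (hinv : ∀ γ ∈ Gamma0 M, F ∣[k] γ = F) (hholo : MDifferentiable (modelWithCornersSelf ℂ ℂ)
      (modelWithCornersSelf ℂ ℂ) F)
    (hzero : ∀ c : OnePoint ℝ, IsCusp c 𝒮ℒ → c.IsZeroAt F k) : CuspForm (Gamma0 M) k where
  toFun := F
  slash_action_eq' := fun _ ⟨γ, hγ, hg⟩ => hg ▸ hinv γ hγ
  holo' := hholo
  zero_at_cusps' := fun {c} hc => hzero c
    (by rwa [Subgroup.IsArithmetic.isCusp_iff_isCusp_SL2Z] at hc)

@[simp] theorem coe_mkCusp [NeZero M] (F : ℍ → ℂ) (h₁ : ∀ γ ∈ Gamma0 M, F ∣[k] γ = F) (h₂)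
    (h₃ : ∀ c : OnePoint ℝ, IsCusp c 𝒮ℒ → c.IsZeroAt F k) :
    ⇑(mkCusp (M := M) F h₁ h₂ h₃) = F := rfl

theorem slash_Gamma0 (f : CuspForm (Gamma0 N) k) {γ : SL(2, ℤ)} (hγ : γ ∈ Gamma0 N) :
    ⇑f ∣[k] γ = ⇑f :=
  SlashInvariantFormClass.slash_action_eq f _ (Subgroup.mem_map_of_mem _ hγ)

/-- The matrix `A` carries `Γ₀(M)` into `Γ₀(N)`. -/
def Carries (A : IMat) (N M : ℕ) : Prop :=
  ∀ γ ∈ Gamma0 M, ∃ γ' ∈ Gamma0 N, A * (γ : IMat) = (γ' : IMat) * A

theorem slash_slash_of_eq (f : CuspForm (Gamma0 N) k) {A B : IMat} (hA : A.det ≠ 0)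
    (hB : B.det ≠ 0) {γ γ' : SL(2, ℤ)} (hγ' : γ' ∈ Gamma0 N)
    (h : A * (γ : IMat) = (γ' : IMat) * B) :
    (⇑f ∣[k] intGL A) ∣[k] γ = ⇑f ∣[k] intGL B := by
  rw [← slash_intGL_coe, ← SlashAction.slash_mul,
    ← intGL_mul hA (by rw [γ.det_coe]; exact one_ne_zero), h,
    intGL_mul (by rw [γ'.det_coe]; exact one_ne_zero) hB, SlashAction.slash_mul, slash_intGL_coe,
    slash_Gamma0 f hγ']

/-- Slash by `A` as a linear map between levels. -/
def cuspSlash [NeZero N] [NeZero M] (A : IMat) (hA : 0 < A.det) (h : Carries A N M) :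
    CuspForm (Gamma0 N) k →ₗ[ℂ] CuspForm (Gamma0 M) k where
  toFun f := mkCusp (⇑f ∣[k] intGL A)
    (fun γ hγ => by
      obtain ⟨γ', hγ', he⟩ := h γ hγ
      exact slash_slash_of_eq f hA.ne' hA.ne' hγ' he)
    ((CuspFormClass.holo f).slash k _) (fun _ hc => isZeroAt_slash_intGL f A hc)
  map_add' f g := DFunLike.coe_injective <| by
    show ⇑(f + g) ∣[k] intGL A = (⇑f ∣[k] intGL A) + (⇑g ∣[k] intGL A)
    rw [CuspForm.coe_add, SlashAction.add_slash]
  map_smul' c f := DFunLike.coe_injective <| by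
    show ⇑(c • f) ∣[k] intGL A = c • (⇑f ∣[k] intGL A)
    rw [CuspForm.IsGLPos.coe_smul, ModularForm.smul_slash, σ_intGL hA,
      ContinuousAlgEquiv.refl_apply]

theorem coe_cuspSlash [NeZero N] [NeZero M] (A : IMat) (hA : 0 < A.det) (h : Carries A N M)
    (f : CuspForm (Gamma0 N) k) : ⇑(cuspSlash A hA h f) = ⇑f ∣[k] intGL A := rfl

theorem mem_Gamma0_iff_dvd {γ : SL(2, ℤ)} : γ ∈ Gamma0 N ↔ (N : ℤ) ∣ (γ : IMat) 1 0 := by
  rw [Gamma0_mem, ZMod.intCast_zmod_eq_zero_iff_dvd]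

theorem carries_diag {d : ℕ} (h : N * d ∣ M) : Carries !![(d : ℤ), 0; 0, 1] N M := by
  intro γ hγ
  obtain ⟨e, he⟩ := (Int.natCast_dvd_natCast.mpr h).trans (mem_Gamma0_iff_dvd.mp hγ)
  refine ⟨⟨!![(γ : IMat) 0 0, d * (γ : IMat) 0 1; N * e, (γ : IMat) 1 1], ?_⟩,
    mem_Gamma0_iff_dvd.mpr (by simp), ?_⟩
  · have hd := γ.det_coe
    rw [Matrix.det_fin_two] at hd
    rw [Matrix.det_fin_two_of]
    push_cast at he
    linear_combination hd + (γ : IMat) 0 1 * he
  · push_cast at he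
    ext a b
    fin_cases a <;> fin_cases b <;> simp [Matrix.mul_apply, Fin.sum_univ_two]
    all_goals first
      | ring1
      | linear_combination he

theorem carries_one (h : N ∣ M) : Carries 1 N M := by
  intro γ hγ
  exact ⟨γ, mem_Gamma0_iff_dvd.mpr ((Int.natCast_dvd_natCast.mpr h).trans
    (mem_Gamma0_iff_dvd.mp hγ)), by rw [one_mul, mul_one]⟩

theorem intGL_one : intGL 1 = 1 :=
  Units.ext (by rw [val_intGL (by simp)]; simp)

/-- Inclusion of forms of level `N` into level `M`. -/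
def incl [NeZero N] [NeZero M] (h : N ∣ M) :
    CuspForm (Gamma0 N) k →ₗ[ℂ] CuspForm (Gamma0 M) k :=
  cuspSlash 1 (by simp) (carries_one h)

@[simp] theorem coe_incl [NeZero N] [NeZero M] (h : N ∣ M) (f : CuspForm (Gamma0 N) k) :
    ⇑(incl h f) = ⇑f := by
  rw [incl, coe_cuspSlash, intGL_one, SlashAction.slash_one]

theorem incl_injective [NeZero N] [NeZero M] (h : N ∣ M) :
    Function.Injective (incl (k := k) h) := fun f g hfg =>
  DFunLike.coe_injective (by rw [← coe_incl h f, hfg, coe_incl])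

/-- The degeneracy map `f ↦ f ∣[k] diag(d, 1)`. -/
def degen [NeZero N] [NeZero M] (d : ℕ) (hd : 0 < d) (h : N * d ∣ M) :
    CuspForm (Gamma0 N) k →ₗ[ℂ] CuspForm (Gamma0 M) k :=
  cuspSlash !![(d : ℤ), 0; 0, 1] (by simp [Matrix.det_fin_two, hd]) (carries_diag h)

theorem coe_degen [NeZero N] [NeZero M] (d : ℕ) (hd : 0 < d) (h : N * d ∣ M)
    (f : CuspForm (Gamma0 N) k) : ⇑(degen d hd h f) = ⇑f ∣[k] heckeDiagMatrix d := by
  rw [degen, coe_cuspSlash, heckeDiagMatrix_eq_intGL hd.ne']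

theorem qCoeff_sub_fun {F G : ℍ → ℂ} (hF : F ∈ qFunctions) (hG : G ∈ qFunctions) (n : ℕ) :
    qCoeff (F - G) n = qCoeff F n - qCoeff G n := by
  have h1 : qExp (⟨F, hF⟩ - ⟨G, hG⟩) = qExp ⟨F, hF⟩ - qExp ⟨G, hG⟩ := map_sub _ _ _
  have h2 := congrArg (PowerSeries.coeff n) h1
  rw [map_sub (PowerSeries.coeff n), qExp_apply, qExp_apply, qExp_apply, Subalgebra.coe_sub] at h2
  exact h2

theorem qCoeff_degen [NeZero N] [NeZero M] (d : ℕ) (hd : 0 < d) (h : N * d ∣ M)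
    (f : CuspForm (Gamma0 N) k) (n : ℕ) :
    qCoeff ⇑(degen d hd h f) n =
      if d ∣ n then (d : ℂ) ^ (k - 1) * qCoeff ⇑f (n / d) else 0 := by
  have hf := coe_mem_qFunctions (one_mem_periods N) f
  have hT : heckeT k d ⇑f ∈ qFunctions :=
    ⟨periodic_heckeT_comp_ofComplex hf.1 k d, mdifferentiable_heckeT hf.2.1 k d,
      isBoundedAtImInfty_heckeT hf.2.2 k d⟩
  have hU : heckeU k d ⇑f ∈ qFunctions :=
    ⟨periodic_heckeU_comp_ofComplex hf.1 k d, mdifferentiable_heckeU hf.2.1 k d,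
      isBoundedAtImInfty_heckeU hf.2.2 k d⟩
  rw [coe_degen, show ⇑f ∣[k] heckeDiagMatrix d = heckeT k d ⇑f - heckeU k d ⇑f by
    rw [heckeT_eq_heckeU_add, add_sub_cancel_left], qCoeff_sub_fun hT hU,
    UpperHalfPlane.qCoeff_heckeT hf.1 hf.2.1 hf.2.2 k hd.ne',
    UpperHalfPlane.qCoeff_heckeU hf.1 hf.2.1 hf.2.2 k hd.ne', coeffHeckeT_eq_coeffHeckeU_add,
    add_sub_cancel_left]

theorem heckeTLin_incl [NeZero N] [NeZero M] (h : N ∣ M) {ℓ : ℕ} (hℓ : ℓ.Prime) (hℓM : ¬ ℓ ∣ M)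
    (f : CuspForm (Gamma0 N) k) :
    CuspForm.heckeTLin k hℓ hℓM (incl h f) =
      incl h (CuspForm.heckeTLin k hℓ (fun hd => hℓM (hd.trans h)) f) :=
  DFunLike.coe_injective (by rw [CuspForm.coe_heckeTLin_apply, coe_incl, coe_incl]; rfl)

theorem heckeT_eq_sum (p : ℕ) (f : ℍ → ℂ) :
    heckeT k p f = ∑ i, f ∣[k] repGL p i := by
  rw [heckeT_eq_heckeU_add, heckeU_def, Fintype.sum_option, add_comm]
  congr 1
  exact (Fin.sum_univ_eq_sum_range (fun j => f ∣[k] heckeMatrix p j) p).symm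

/-- Slashing by a matrix commutes with the good Hecke operators, given the permutation of the
representatives. -/
theorem heckeTLin_cuspSlash [NeZero N] [NeZero M] {A : IMat} (hA : 0 < A.det)
    (h : Carries A N M) {ℓ : ℕ} (hℓ : ℓ.Prime) (hℓN : ¬ ℓ ∣ N) (hℓM : ¬ ℓ ∣ M)
    (hℓA : ¬ (ℓ : ℤ) ∣ A.det)
    (hperm : ∀ i, ∃ (j : Option (Fin ℓ)) (γ : SL(2, ℤ)), γ ∈ Gamma0 N ∧
      A * heckeRep ℓ i = (γ : IMat) * (heckeRep ℓ j * A))
    (f : CuspForm (Gamma0 N) k) :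
    CuspForm.heckeTLin k hℓ hℓM (cuspSlash A hA h f) =
      cuspSlash A hA h (CuspForm.heckeTLin k hℓ hℓN f) := by
  choose e g hg he using hperm
  have hdet : ∀ i, (heckeRep ℓ i).det ≠ 0 := fun i => by
    rw [det_heckeRep]; exact_mod_cast hℓ.ne_zero
  have hinj : Function.Injective e := by
    intro i j hij
    have hi := he i
    have hj := he j
    rw [← hij] at hj
    have key : ((g j : IMat) * (g i : IMat).adjugate) * (A * heckeRep ℓ i) =
        A * heckeRep ℓ j := by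
      rw [hi, hj, mul_assoc, ← mul_assoc (g i : IMat).adjugate, Matrix.adjugate_mul,
        (g i).det_coe, one_smul, one_mul]
    have key2 := congrArg (fun X => A.adjugate * X) key
    simp only [← mul_assoc, Matrix.adjugate_mul] at key2
    set B : IMat := A.adjugate * ((g j : IMat) * (g i : IMat).adjugate) * A with hB
    have hmod : B * heckeRep ℓ i = (A.det • (1 : IMat)) * heckeRep ℓ j := by
      rw [hB, ← key2]
      simp only [mul_assoc]
    refine Fermat.Agent.GalRep.heckeRep_unique hℓ ?_ hmod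
    have hdB : B.det = A.det ^ 2 := by
      have := congrArg Matrix.det hmod
      rw [Matrix.det_mul B, Matrix.det_mul (A.det • (1 : IMat)), det_heckeRep, det_heckeRep,
        Matrix.det_smul, Matrix.det_one, mul_one] at this
      have h2 := mul_right_cancel₀ (Int.natCast_ne_zero.mpr hℓ.ne_zero) this
      simpa using h2
    rw [hdB]
    exact fun hd => hℓA ((Nat.prime_iff_prime_int.mp hℓ).dvd_of_dvd_pow hd)
  refine DFunLike.coe_injective ?_
  rw [CuspForm.coe_heckeTLin_apply, coe_cuspSlash, coe_cuspSlash, CuspForm.coe_heckeTLin_apply,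
    heckeT_eq_sum, heckeT_eq_sum, SlashAction.sum_slash]
  rw [← Equiv.sum_comp (Equiv.ofBijective e hinj.bijective_of_finite)
    (fun i => (⇑f ∣[k] repGL ℓ i) ∣[k] intGL A)]
  refine Finset.sum_congr rfl fun i _ => ?_
  simp only [Equiv.ofBijective_apply]
  rw [repGL_eq_intGL hℓ.ne_zero, repGL_eq_intGL hℓ.ne_zero, ← SlashAction.slash_mul,
    ← SlashAction.slash_mul, ← intGL_mul hA.ne' (hdet _), he, intGL_mul (by
      rw [(g i).det_coe]; exact one_ne_zero)
      (by rw [Matrix.det_mul]; exact mul_ne_zero (hdet _) hA.ne'), SlashAction.slash_mul,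
    slash_intGL_coe, slash_Gamma0 f (hg i), intGL_mul (hdet _) hA.ne']

end Fermat.Agent.Newform
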