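import Fermat.Agent.Newform.Eigen

/-!
Eigenforms above a prime of the Hecke algebra away from a set of primes.
-/

set_option autoImplicit false

noncomputable section

open CongruenceSubgroup ModularFormClass

namespace Fermat.Agent.Newform

open Fermat.Agent.Hecke

variable {M : ℕ} [NeZero M]

/-- Every prime ideal of the Hecke algebra away from `S` contains the kernel of the character of a
normalised eigenform. -/
theorem exists_eigenform_ker_le (S : Set ℕ) (𝔭 : Ideal (CuspForm.heckeAlgebra M 2 S)) [𝔭.IsPrime] :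
    ∃ (f : CuspForm (Gamma0 M) 2) (χ : CuspForm.heckeAlgebra M 2 S →+* ℂ),
      f.IsNormalizedEigenform ∧ RingHom.ker χ ≤ 𝔭 ∧
      (∀ t : CuspForm.heckeAlgebra M 2 S,
        (t : Module.End ℂ (CuspForm (Gamma0 M) 2)) f = χ t • f) ∧
      ∀ (ℓ : ℕ) (hℓ : ℓ.Prime) (hℓM : ¬ ℓ ∣ M) (hℓS : ℓ ∉ S),
        χ (CuspForm.heckeAlgebra.T hℓ hℓM hℓS) = qCoeff ⇑f ℓ := by
  let ρ : CuspForm.heckeAlgebra M 2 S →+* Module.End ℂ (CuspForm (Gamma0 M) 2) :=
    (CuspForm.heckeAlgebra M 2 S).val.toRingHom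
  obtain ⟨v, hv, χ, hχ, hker⟩ := exists_eigenvector_ker_le ρ
    (fun a b h => Subtype.ext h) 𝔭
  -- the simultaneous eigenspace of `χ`
  let W : Submodule ℂ (CuspForm (Gamma0 M) 2) :=
    ⨅ t : CuspForm.heckeAlgebra M 2 S, Module.End.eigenspace (ρ t) (χ t)
  have memW : ∀ w, w ∈ W ↔ ∀ t, ρ t w = χ t • w := fun w => by
    simp [W, Submodule.mem_iInf, Module.End.mem_eigenspace_iff]
  have hW : W ≠ ⊥ := fun h0 => hv (by
    have := (memW v).mpr hχ
    rwa [h0, Submodule.mem_bot] at this)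
  let ρ' : CuspForm.heckeAlgebra M 2 (∅ : Set ℕ) →+* Module.End ℂ (CuspForm (Gamma0 M) 2) :=
    (CuspForm.heckeAlgebra M 2 (∅ : Set ℕ)).val.toRingHom
  have hstab : ∀ s, ∀ w ∈ W, ρ' s w ∈ W := fun s w hw => (memW _).mpr fun t => by
    have h := congrArg Subtype.val (mul_comm
      (⟨(t : Module.End ℂ (CuspForm (Gamma0 M) 2)),
        CuspForm.heckeAlgebra_mono (Set.empty_subset S) t.2⟩ :
          CuspForm.heckeAlgebra M 2 (∅ : Set ℕ)) s)
    rw [MulMemClass.coe_mul, MulMemClass.coe_mul] at h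
    have h' := LinearMap.congr_fun h w
    rw [Module.End.mul_apply, Module.End.mul_apply] at h'
    show ρ t (ρ' s w) = χ t • ρ' s w
    rw [← map_smul, ← (memW w).mp hw t]
    exact h'
  obtain ⟨g, hg, hg0, heig⟩ := exists_common_eigenvector ρ' _ W rfl hW hstab
  obtain ⟨χ₀, hχ₀⟩ := exists_character ρ' hg0 heig
  obtain ⟨f, hf, ⟨c, -, hfg⟩, hfℓ⟩ := exists_eigenform_smul_of_character hg0 χ₀ hχ₀
  have hfW : f ∈ W := hfg ▸ W.smul_mem c hg
  refine ⟨f, χ, hf, hker, (memW f).mp hfW, fun ℓ hℓ hℓM hℓS => ?_⟩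
  refine smul_left_injective ℂ hf.ne_zero ?_
  show χ _ • f = _ • f
  rw [← (memW f).mp hfW, ← eigen_heckeTLin hf hℓ hℓM]
  rfl

/-- A homomorphism of the Hecke algebra away from `S` to a field is congruent to an eigenform. -/
theorem exists_eigenform_of_ringHom (S : Set ℕ) {k : Type*} [Field k]
    (θ : CuspForm.heckeAlgebra M 2 S →+* k) :
    ∃ (f : CuspForm (Gamma0 M) 2) (χ : CuspForm.heckeAlgebra M 2 S →+* ℂ),
      f.IsNormalizedEigenform ∧ RingHom.ker χ ≤ RingHom.ker θ ∧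
      (∀ t : CuspForm.heckeAlgebra M 2 S,
        (t : Module.End ℂ (CuspForm (Gamma0 M) 2)) f = χ t • f) ∧
      ∀ (ℓ : ℕ) (hℓ : ℓ.Prime) (hℓM : ¬ ℓ ∣ M) (hℓS : ℓ ∉ S),
        χ (CuspForm.heckeAlgebra.T hℓ hℓM hℓS) = qCoeff ⇑f ℓ :=
  haveI := RingHom.ker_isPrime θ
  exists_eigenform_ker_le S (RingHom.ker θ)

/-- When every prime divisor of the level is in `S`, ring maps out of the Hecke algebra away from
`S` are determined by the operators `T ℓ`. -/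
theorem heckeHom_ext {S : Set ℕ} (hS : ∀ q : ℕ, q.Prime → q ∣ M → q ∈ S) {R : Type*} [CommRing R]
    {θ θ' : CuspForm.heckeAlgebra M 2 S →+* R}
    (h : ∀ (ℓ : ℕ) (hℓ : ℓ.Prime) (hℓM : ¬ ℓ ∣ M) (hℓS : ℓ ∉ S),
      θ (CuspForm.heckeAlgebra.T hℓ hℓM hℓS) = θ' (CuspForm.heckeAlgebra.T hℓ hℓM hℓS)) :
    θ = θ' := by
  refine RingHom.ext fun ⟨t, ht⟩ => ?_
  induction ht using Algebra.adjoin_induction with
  | mem x hx =>
    rcases hx with ⟨ℓ, hℓ, hℓM, hℓS, rfl⟩ | ⟨q, hqM, hq, hqS, rfl⟩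
    · exact h ℓ hℓ hℓM hℓS
    · exact absurd (hS q hq hqM) hqS
  | algebraMap r =>
    show θ (algebraMap ℤ (CuspForm.heckeAlgebra M 2 S) r) =
      θ' (algebraMap ℤ (CuspForm.heckeAlgebra M 2 S) r)
    rw [eq_intCast, map_intCast, map_intCast]
  | add x y hx' hy' hx hy =>
    show θ (⟨x, hx'⟩ + ⟨y, hy'⟩) = θ' (⟨x, hx'⟩ + ⟨y, hy'⟩)
    rw [map_add, map_add, hx, hy]
  | mul x y hx' hy' hx hy =>
    show θ (⟨x, hx'⟩ * ⟨y, hy'⟩) = θ' (⟨x, hx'⟩ * ⟨y, hy'⟩)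
    rw [map_mul, map_mul, hx, hy]

end Fermat.Agent.Newform
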