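import Fermat.Agent.Newform.BadCoeff

/-!
A cusp form supported away from the level on finitely many primes vanishes; independence of
eigensystems from finitely many primes; raising the level of an eigensystem.
-/

set_option autoImplicit false

noncomputable section

open CongruenceSubgroup ModularFormClass UpperHalfPlane ModularForm Matrix.SpecialLinearGroup
open scoped MatrixGroups

namespace Fermat.Agent.Newform

open Fermat.Agent.Hecke
open Fermat.Agent.GalRep (IMat)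

variable {k : ℤ}

theorem qCoeff_incl {N M : ℕ} [NeZero N] [NeZero M] (h : N ∣ M) (f : CuspForm (Gamma0 N) k)
    (n : ℕ) : qCoeff ⇑(incl h f) n = qCoeff ⇑f n := by rw [coe_incl]

/-- Removing the coefficients at multiples of a prime. -/
theorem exists_project {N ℓ : ℕ} [NeZero N] (hℓ : ℓ.Prime) (f : CuspForm (Gamma0 N) k) :
    ∃ g : CuspForm (Gamma0 (N * ℓ ^ 2)) k,
      ∀ n, qCoeff ⇑g n = if ℓ ∣ n then 0 else qCoeff ⇑f n := by
  haveI : NeZero ℓ := ⟨hℓ.ne_zero⟩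
  have hd : N * ℓ * ℓ ∣ N * ℓ ^ 2 := by rw [sq, ← mul_assoc]
  set u := CuspForm.heckeULin k (dvd_mul_left ℓ N) (incl (dvd_mul_right N ℓ) f)
  refine ⟨incl (dvd_mul_right N (ℓ ^ 2)) f - ((ℓ : ℂ) ^ (k - 1))⁻¹ • degen ℓ hℓ.pos hd u,
    fun n => ?_⟩
  rw [qCoeff_sub, qCoeff_smul, qCoeff_incl, qCoeff_degen]
  split_ifs with h
  · rw [qCoeff_heckeULin hℓ (dvd_mul_left ℓ N), qCoeff_incl, Nat.div_mul_cancel h, ← mul_assoc,
      inv_mul_cancel₀ (zpow_ne_zero _ (Nat.cast_ne_zero.mpr hℓ.ne_zero)), one_mul, sub_self]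
  · rw [mul_zero, sub_zero]

/-- A form supported on multiples of a good prime is the dilate of a form of the same level. -/
theorem exists_contract {L ℓ : ℕ} [NeZero L] (hℓ : ℓ.Prime) (hℓL : ¬ ℓ ∣ L)
    (h : CuspForm (Gamma0 L) k) (hsupp : ∀ n, ¬ ℓ ∣ n → qCoeff ⇑h n = 0) :
    ∃ g : CuspForm (Gamma0 L) k, ∀ n, qCoeff ⇑g n = qCoeff ⇑h (n * ℓ) := by
  haveI : NeZero ℓ := ⟨hℓ.ne_zero⟩
  set u := CuspForm.heckeULin k (dvd_mul_left ℓ L) (incl (dvd_mul_right L ℓ) h) with hu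
  have hd : L * ℓ * ℓ ∣ L * ℓ ^ 2 := by rw [sq, ← mul_assoc]
  have hc : ((ℓ : ℂ) ^ (k - 1)) ≠ 0 := zpow_ne_zero _ (Nat.cast_ne_zero.mpr hℓ.ne_zero)
  have hfun : ⇑u ∣[k] intGL !![(ℓ : ℤ), 0; 0, 1] = ((ℓ : ℂ) ^ (k - 1)) • ⇑h := by
    have he : degen ℓ hℓ.pos hd u = ((ℓ : ℂ) ^ (k - 1)) • incl (dvd_mul_right L (ℓ ^ 2)) h :=
      cuspForm_ext_qCoeff fun n => by
        rw [qCoeff_degen, qCoeff_smul, qCoeff_incl]
        split_ifs with h'
        · rw [qCoeff_heckeULin hℓ (dvd_mul_left ℓ L), qCoeff_incl, Nat.div_mul_cancel h']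
        · rw [hsupp n h', mul_zero]
    have := congrArg (fun y : CuspForm (Gamma0 (L * ℓ ^ 2)) k => ⇑y) he
    simp only [FunLike.coe_smul, coe_incl, coe_degen] at this
    rwa [heckeDiagMatrix_eq_intGL hℓ.ne_zero] at this
  set D : IMat := !![(ℓ : ℤ), 0; 0, 1]
  have hD : 0 < D.det := by simp [D, Matrix.det_fin_two, hℓ.pos]
  -- invariance under the elements with upper right entry divisible by `ℓ`
  have hupper : ∀ γ ∈ Gamma0 L, (ℓ : ℤ) ∣ (γ : IMat) 0 1 → ⇑u ∣[k] γ = ⇑u := by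
    rintro γ hγ ⟨b, hb⟩
    let δ : IMat := !![(γ : IMat) 0 0, b; ℓ * (γ : IMat) 1 0, (γ : IMat) 1 1]
    have hdet : δ.det = 1 := by
      have hdγ := γ.det_coe
      rw [Matrix.det_fin_two, hb] at hdγ
      simp only [δ, Matrix.det_fin_two_of]
      linear_combination hdγ
    have hδL : (⟨δ, hdet⟩ : SL(2, ℤ)) ∈ Gamma0 L :=
      mem_Gamma0_iff_dvd.mpr ((mem_Gamma0_iff_dvd.mp hγ).mul_left _)
    have hcomm : (γ : IMat) * D = D * δ := by
      ext i j
      fin_cases i <;> fin_cases j <;> simp [D, δ, Matrix.mul_apply, Fin.sum_univ_two, hb] <;> ring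
    have h1 : (⇑u ∣[k] γ) ∣[k] intGL D = ⇑u ∣[k] intGL D := by
      rw [← slash_intGL_coe, ← SlashAction.slash_mul,
        ← intGL_mul (by rw [γ.det_coe]; exact one_ne_zero) hD.ne', hcomm,
        intGL_mul hD.ne' (by rw [hdet]; exact one_ne_zero), SlashAction.slash_mul, hfun,
        show δ = ((⟨δ, hdet⟩ : SL(2, ℤ)) : IMat) from rfl, slash_intGL_coe,
        SL_smul_slash, slash_Gamma0 h hδL]
    have h2 := congrArg (fun F : ℍ → ℂ => F ∣[k] (intGL D)⁻¹) h1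
    simpa only [← SlashAction.slash_mul, mul_inv_cancel, SlashAction.slash_one] using h2
  have hT : ∀ j : ℤ, (ModularGroup.T ^ j) ∈ Gamma0 (L * ℓ) := fun j =>
    mem_Gamma0_iff_dvd.mpr (by simp [ModularGroup.coe_T_zpow])
  have htrans : ∀ j : ℤ, ⇑u ∣[k] (ModularGroup.T ^ j) = ⇑u := fun j => slash_Gamma0 u (hT j)
  have hcase : ∀ γ ∈ Gamma0 L, ¬ (ℓ : ℤ) ∣ (γ : IMat) 1 1 → ⇑u ∣[k] γ = ⇑u := by
    intro γ hγ hd'
    haveI := Fact.mk hℓ
    rw [← ZMod.intCast_zmod_eq_zero_iff_dvd] at hd'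
    set t : ZMod ℓ := -(((γ : IMat) 0 1 : ℤ) : ZMod ℓ) / (((γ : IMat) 1 1 : ℤ) : ZMod ℓ)
    set j : ℤ := (t.val : ℤ)
    have h01 : ((ModularGroup.T ^ j * γ : SL(2, ℤ)) : IMat) 0 1 =
        (γ : IMat) 0 1 + j * (γ : IMat) 1 1 := by
      simp [Matrix.SpecialLinearGroup.coe_mul, ModularGroup.coe_T_zpow, Matrix.mul_apply,
        Fin.sum_univ_two]
    have hmem : ModularGroup.T ^ j * γ ∈ Gamma0 L :=
      mul_mem (mem_Gamma0_iff_dvd.mpr (by simp [ModularGroup.coe_T_zpow])) hγ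
    have hdvd : (ℓ : ℤ) ∣ ((ModularGroup.T ^ j * γ : SL(2, ℤ)) : IMat) 0 1 := by
      rw [h01, ← ZMod.intCast_zmod_eq_zero_iff_dvd]
      simp only [j, t]
      push_cast
      rw [ZMod.natCast_zmod_val]
      field_simp
      ring
    have h1 := hupper _ hmem hdvd
    rwa [SlashAction.slash_mul, htrans] at h1
  have hall : ∀ γ ∈ Gamma0 L, ⇑u ∣[k] γ = ⇑u := by
    intro γ hγ
    by_cases hd' : (ℓ : ℤ) ∣ (γ : IMat) 1 1
    · have hc' : ¬ (ℓ : ℤ) ∣ (γ : IMat) 1 0 := fun hc' => by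
        have hdγ := γ.det_coe
        rw [Matrix.det_fin_two] at hdγ
        have h1 : (ℓ : ℤ) ∣ 1 := hdγ ▸ dvd_sub (hd'.mul_left _) (hc'.mul_left _)
        exact hℓ.not_dvd_one (by exact_mod_cast h1)
      have h11 : ((γ * ModularGroup.T ^ (1 : ℤ) : SL(2, ℤ)) : IMat) 1 1 =
          (γ : IMat) 1 0 + (γ : IMat) 1 1 := by
        simp [Matrix.SpecialLinearGroup.coe_mul, ModularGroup.coe_T_zpow, Matrix.mul_apply,
          Fin.sum_univ_two, ModularGroup.T]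
      have hmem : γ * ModularGroup.T ^ (1 : ℤ) ∈ Gamma0 L :=
        mul_mem hγ (mem_Gamma0_iff_dvd.mpr (by simp [ModularGroup.coe_T_zpow]))
      have h1 := hcase _ hmem (by rw [h11]; exact fun hx => hc' ((dvd_add_left hd').mp hx))
      have h2 := congrArg (fun F : ℍ → ℂ => F ∣[k] (ModularGroup.T ^ (-1 : ℤ))) h1
      simpa only [← SlashAction.slash_mul, mul_assoc, ← zpow_add, add_neg_cancel, zpow_zero,
        mul_one, htrans] using h2
    · exact hcase γ hγ hd'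
  refine ⟨mkCusp ⇑u hall (CuspFormClass.holo u) (fun c hc => CuspFormClass.zero_at_cusps u
    (by rwa [Subgroup.IsArithmetic.isCusp_iff_isCusp_SL2Z])), fun n => ?_⟩
  rw [coe_mkCusp, hu, qCoeff_heckeULin hℓ (dvd_mul_left ℓ L), qCoeff_incl]

/-- A form supported on multiples of a prime not dividing the level vanishes. -/
theorem eq_zero_of_supported_prime {L ℓ : ℕ} [NeZero L] (hℓ : ℓ.Prime) (hℓL : ¬ ℓ ∣ L)
    (h : CuspForm (Gamma0 L) k) (hsupp : ∀ n, ¬ ℓ ∣ n → qCoeff ⇑h n = 0) : h = 0 := by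
  let W : Submodule ℂ (CuspForm (Gamma0 L) k) :=
    ⨅ n ∈ {n : ℕ | ¬ ℓ ∣ n}, LinearMap.ker (qCoeffLin L k n)
  have memW : ∀ x, x ∈ W ↔ ∀ n, ¬ ℓ ∣ n → qCoeff ⇑x n = 0 := fun x => by
    simp [W, Submodule.mem_iInf]
  choose G hG using fun x : W => exists_contract hℓ hℓL (x : CuspForm (Gamma0 L) k)
    ((memW x).mp x.2)
  let Φ : W → CuspForm (Gamma0 L) k := fun x => CuspForm.heckeTLin k hℓ hℓL x - G x
  have hΦ : ∀ (x : W) n, qCoeff ⇑(Φ x) n =
      if ℓ ∣ n then (ℓ : ℂ) ^ (k - 1) * qCoeff ⇑(x : CuspForm (Gamma0 L) k) (n / ℓ) else 0 :=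
    fun x n => by rw [qCoeff_sub, qCoeff_heckeTLin hℓ hℓL, hG]; ring
  let Φl : W →ₗ[ℂ] W :=
    { toFun := fun x => ⟨Φ x, (memW _).mpr fun n hn => by rw [hΦ, if_neg hn]⟩
      map_add' := fun x y => Subtype.ext (cuspForm_ext_qCoeff fun n => by
        simp only [Submodule.coe_add, qCoeff_add, hΦ]
        split_ifs <;> ring)
      map_smul' := fun c x => Subtype.ext (cuspForm_ext_qCoeff fun n => by
        simp only [SetLike.val_smul, RingHom.id_apply, qCoeff_smul, hΦ]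
        split_ifs <;> ring) }
  have hinj : Function.Injective Φl := by
    rw [injective_iff_map_eq_zero]
    intro x hx
    refine Subtype.ext (cuspForm_ext_qCoeff fun n => ?_)
    have h1 := hΦ x (n * ℓ)
    rw [show Φ x = ((Φl x : W) : CuspForm (Gamma0 L) k) from rfl, hx, if_pos (dvd_mul_left ℓ n),
      Nat.mul_div_cancel _ hℓ.pos, ZeroMemClass.coe_zero, qCoeff_zero_form] at h1
    rw [ZeroMemClass.coe_zero, qCoeff_zero_form]
    exact (mul_eq_zero.mp h1.symm).resolve_left (zpow_ne_zero _ (Nat.cast_ne_zero.mpr hℓ.ne_zero))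
  have hsurj := LinearMap.injective_iff_surjective.mp hinj
  have hzero : ∀ n, ∀ x : W, qCoeff ⇑(x : CuspForm (Gamma0 L) k) n = 0 := by
    intro n
    induction n using Nat.strong_induction_on with
    | _ n IH =>
      intro x
      obtain ⟨y, rfl⟩ := hsurj x
      show qCoeff ⇑(Φ y) n = 0
      rw [hΦ]
      split_ifs with hd
      · rcases Nat.eq_zero_or_pos n with rfl | hn
        · rw [Nat.zero_div, qCoeff_cusp_zero, mul_zero]
        · rw [IH _ (Nat.div_lt_self hn hℓ.one_lt) y, mul_zero]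
      · rfl
  exact cuspForm_ext_qCoeff fun n => by
    rw [qCoeff_zero_form]; exact hzero n ⟨h, (memW h).mpr hsupp⟩

/-- A form whose coefficients vanish away from finitely many primes not dividing the level. -/
theorem eq_zero_of_supported_finset (S : Finset ℕ) : ∀ (L : ℕ) [NeZero L],
    (∀ ℓ ∈ S, ℓ.Prime ∧ ¬ ℓ ∣ L) → ∀ h : CuspForm (Gamma0 L) k,
      (∀ n, (∀ ℓ ∈ S, ¬ ℓ ∣ n) → qCoeff ⇑h n = 0) → h = 0 := by
  induction S using Finset.induction_on with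
  | empty =>
    intro L _ _ h hh
    exact cuspForm_ext_qCoeff fun n => by rw [qCoeff_zero_form]; exact hh n (by simp)
  | @insert ℓ s hns IH =>
    intro L _ hS h hh
    obtain ⟨hℓ, hℓL⟩ := hS ℓ (Finset.mem_insert_self _ _)
    haveI : NeZero ℓ := ⟨hℓ.ne_zero⟩
    obtain ⟨g, hg⟩ := exists_project hℓ h
    have hg0 : g = 0 := by
      refine IH (L * ℓ ^ 2) (fun r hr => ?_) g (fun n hn => ?_)
      · obtain ⟨hr', hrL⟩ := hS r (Finset.mem_insert_of_mem hr)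
        refine ⟨hr', fun hd => (hr'.dvd_mul.mp hd).elim hrL fun h2 => hns ?_⟩
        rwa [← (Nat.prime_dvd_prime_iff_eq hr' hℓ).mp (hr'.dvd_of_dvd_pow h2)]
      · rw [hg]
        split_ifs with hd
        · rfl
        · exact hh n (Finset.forall_mem_insert _ _ _ |>.mpr ⟨hd, hn⟩)
    refine eq_zero_of_supported_prime hℓ hℓL h fun n hn => ?_
    have := hg n
    rw [hg0, qCoeff_zero_form, if_neg hn] at this
    exact this.symm

theorem exists_project_finset {N : ℕ} [NeZero N] (f : CuspForm (Gamma0 N) k) (P : Finset ℕ)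
    (hP : ∀ p ∈ P, p.Prime) :
    ∃ (L : ℕ) (_ : NeZero L) (g : CuspForm (Gamma0 L) k),
      (∀ r : ℕ, r.Prime → r ∣ L → r ∣ N ∨ r ∈ P) ∧
      ∀ n, qCoeff ⇑g n = if ∃ p ∈ P, p ∣ n then 0 else qCoeff ⇑f n := by
  induction P using Finset.induction_on with
  | empty => exact ⟨N, inferInstance, f, fun r _ h => .inl h, fun n => by simp⟩
  | @insert p s hps IH =>
    obtain ⟨L, hL, g, hdiv, hg⟩ := IH fun x hx => hP x (Finset.mem_insert_of_mem hx)
    have hp := hP p (Finset.mem_insert_self _ _)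
    haveI : NeZero p := ⟨hp.ne_zero⟩
    obtain ⟨g', hg'⟩ := exists_project hp g
    refine ⟨L * p ^ 2, inferInstance, g', fun r hr hd => ?_, fun n => ?_⟩
    · rcases hr.dvd_mul.mp hd with h1 | h1
      · exact (hdiv r hr h1).imp_right Finset.mem_insert_of_mem
      · exact .inr (Finset.mem_insert.mpr (.inl ((Nat.prime_dvd_prime_iff_eq hr hp).mp
          (hr.dvd_of_dvd_pow h1))))
    · rw [hg', hg]
      by_cases h1 : p ∣ n
      · rw [if_pos h1, if_pos ⟨p, Finset.mem_insert_self _ _, h1⟩]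
      by_cases h2 : ∃ x ∈ s, x ∣ n
      · obtain ⟨x, hx, hxn⟩ := h2
        rw [if_neg h1, if_pos ⟨x, hx, hxn⟩, if_pos ⟨x, Finset.mem_insert_of_mem hx, hxn⟩]
      rw [if_neg h1, if_neg h2, if_neg]
      rintro ⟨x, hx, hxn⟩
      rcases Finset.mem_insert.mp hx with rfl | hx
      · exact h1 hxn
      · exact h2 ⟨x, hx, hxn⟩

/-- Eigenforms agreeing at almost all good primes agree at all of them. -/
theorem qCoeff_eq_of_agree_outside {N M : ℕ} [NeZero N] [NeZero M]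
    {f : CuspForm (Gamma0 N) 2} {g : CuspForm (Gamma0 M) 2}
    (hf : f.IsNormalizedEigenform) (hg : g.IsNormalizedEigenform) (X : Finset ℕ)
    (h : ∀ ℓ : ℕ, ℓ.Prime → ¬ ℓ ∣ N → ¬ ℓ ∣ M → ℓ ∉ X → qCoeff ⇑f ℓ = qCoeff ⇑g ℓ)
    (n : ℕ) (hnN : n.Coprime N) (hnM : n.Coprime M) : qCoeff ⇑f n = qCoeff ⇑g n := by
  classical
  haveI : NeZero (N * M) := ⟨mul_ne_zero (NeZero.ne N) (NeZero.ne M)⟩
  set h0 := incl (dvd_mul_right N M) f - incl (dvd_mul_left M N) g with hh0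
  obtain ⟨L, hL, h1, hdiv, hh1⟩ := exists_project_finset h0 (N * M).primeFactors
    fun p hp => Nat.prime_of_mem_primeFactors hp
  have hdiv' : ∀ r : ℕ, r.Prime → r ∣ L → r ∣ N * M := fun r hr hrL =>
    (hdiv r hr hrL).elim id Nat.dvd_of_mem_primeFactors
  have hcoeff : ∀ n, (¬ ∃ p ∈ (N * M).primeFactors, p ∣ n) →
      qCoeff ⇑h1 n = qCoeff ⇑f n - qCoeff ⇑g n := fun n hn => by
    rw [hh1, if_neg hn, hh0, qCoeff_sub, qCoeff_incl, qCoeff_incl]
  have hzero : h1 = 0 := by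
    refine eq_zero_of_supported_finset (X.filter fun ℓ => ℓ.Prime ∧ ¬ ℓ ∣ N * M) L
      (fun ℓ hℓ => ?_) h1 fun n hn => ?_
    · obtain ⟨-, hℓ', hℓNM⟩ := Finset.mem_filter.mp hℓ
      exact ⟨hℓ', fun hd => hℓNM (hdiv' ℓ hℓ' hd)⟩
    · by_cases hbad : ∃ p ∈ (N * M).primeFactors, p ∣ n
      · rw [hh1, if_pos hbad]
      rw [hcoeff n hbad, sub_eq_zero]
      clear hh1 hcoeff
      induction n using Nat.strong_induction_on with
      | _ n IH =>
        rcases Nat.lt_or_ge n 2 with hn2 | hn2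
        · rcases n with _ | _ | n
          · rw [qCoeff_cusp_zero, qCoeff_cusp_zero]
          · rw [hf.qCoeff_one, hg.qCoeff_one]
          · omega
        have hp : n.minFac.Prime := Nat.minFac_prime (by omega)
        set p := n.minFac with hpdef
        have hpn : p ∣ n := Nat.minFac_dvd n
        have hpNM : ¬ p ∣ N * M := fun hd => hbad ⟨p, Nat.mem_primeFactors.mpr
          ⟨hp, hd, NeZero.ne _⟩, hpn⟩
        have hpN : ¬ p ∣ N := fun hd => hpNM (hd.mul_right _)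
        have hpM : ¬ p ∣ M := fun hd => hpNM (hd.mul_left _)
        have hab : qCoeff ⇑f p = qCoeff ⇑g p := h p hp hpN hpM fun hX =>
          hn p (Finset.mem_filter.mpr ⟨hX, hp, hpNM⟩) hpn
        have hsub : ∀ m, m ∣ n → m < n → qCoeff ⇑f m = qCoeff ⇑g m := fun m hm hlt =>
          IH m hlt (fun ℓ hℓ hd => hn ℓ hℓ (hd.trans hm))
            (fun ⟨r, hr, hd⟩ => hbad ⟨r, hr, hd.trans hm⟩)
        obtain ⟨m, hnm⟩ := hpn
        have hm0 : 0 < m := Nat.pos_of_ne_zero fun h0 => by simp [h0] at hnm; omega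
        have hlt : m < n := hnm ▸ lt_mul_left hm0 hp.one_lt
        have e1 := eigen_prime_pow_mul hf hp m
        have e2 := eigen_prime_pow_mul hg hp m
        rw [if_neg hpN] at e1
        rw [if_neg hpM] at e2
        rw [hsub m ⟨p, by rw [hnm, mul_comm]⟩ hlt, hab] at e1
        have e3 : (if p ∣ m then (p : ℂ) * qCoeff ⇑f (m / p) else 0) =
            if p ∣ m then (p : ℂ) * qCoeff ⇑g (m / p) else 0 := by
          split_ifs with hd
          · rw [hsub (m / p) ((Nat.div_dvd_of_dvd hd).trans ⟨p, by rw [hnm, mul_comm]⟩)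
              (lt_of_le_of_lt (Nat.div_le_self _ _) hlt)]
          · rfl
        rw [hnm, mul_comm]
        linear_combination e1 - e2 - e3
  have hn' : ¬ ∃ p ∈ (N * M).primeFactors, p ∣ n := by
    rintro ⟨p, hp, hpn⟩
    have hp' := Nat.prime_of_mem_primeFactors hp
    exact (Nat.Prime.coprime_iff_not_dvd hp').mp ((hnN.mul_right hnM).coprime_dvd_left hpn)
      (Nat.dvd_of_mem_primeFactors hp)
  have := hcoeff n hn'
  rw [hzero, qCoeff_zero_form] at this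
  exact sub_eq_zero.mp this.symm

/-- Prime version of independence from finitely many primes. -/
theorem qCoeff_prime_eq_of_agree_outside {N M : ℕ} [NeZero N] [NeZero M]
    {f : CuspForm (Gamma0 N) 2} {g : CuspForm (Gamma0 M) 2}
    (hf : f.IsNormalizedEigenform) (hg : g.IsNormalizedEigenform) (X : Finset ℕ)
    (h : ∀ ℓ : ℕ, ℓ.Prime → ¬ ℓ ∣ N → ¬ ℓ ∣ M → ℓ ∉ X → qCoeff ⇑f ℓ = qCoeff ⇑g ℓ)
    {ℓ : ℕ} (hℓ : ℓ.Prime) (hℓN : ¬ ℓ ∣ N) (hℓM : ¬ ℓ ∣ M) : qCoeff ⇑f ℓ = qCoeff ⇑g ℓ :=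
  qCoeff_eq_of_agree_outside hf hg X h ℓ (hℓ.coprime_iff_not_dvd.mpr hℓN)
    (hℓ.coprime_iff_not_dvd.mpr hℓM)

/-- An eigenform of level dividing `N` agreeing outside a finite set gives the eigensystem. -/
theorem goodEigensystemOccursAt_of_agree_outside {N M : ℕ} [NeZero N]
    {f : CuspForm (Gamma0 N) 2} {g : CuspForm (Gamma0 M) 2}
    (hf : f.IsNormalizedEigenform) (hg : g.IsNormalizedEigenform) (hMN : M ∣ N) (X : Finset ℕ)
    (h : ∀ ℓ : ℕ, ℓ.Prime → ¬ ℓ ∣ N → ℓ ∉ X → qCoeff ⇑g ℓ = qCoeff ⇑f ℓ) :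
    CuspForm.GoodEigensystemOccursAt f M :=
  haveI : NeZero M := ⟨fun h0 => NeZero.ne N (Nat.eq_zero_of_zero_dvd (h0 ▸ hMN))⟩
  ⟨g, hg, fun _ hℓ hℓN => (qCoeff_prime_eq_of_agree_outside hf hg X
    (fun r hr hrN _ hrX => (h r hr hrN hrX).symm) hℓ hℓN fun hd => hℓN (hd.trans hMN)).symm⟩

/-- No eigenform of proper divisor level agrees with a newform outside a finite set. -/
theorem IsNewform.not_agree_outside {N M : ℕ} [NeZero N] {f : CuspForm (Gamma0 N) 2}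
    {g : CuspForm (Gamma0 M) 2} (hf : f.IsNewform) (hg : g.IsNormalizedEigenform) (hMN : M ∣ N)
    (hne : M ≠ N) (X : Finset ℕ) :
    ¬ ∀ ℓ : ℕ, ℓ.Prime → ¬ ℓ ∣ N → ℓ ∉ X → qCoeff ⇑g ℓ = qCoeff ⇑f ℓ := fun h =>
  hf.2 M hMN hne (goodEigensystemOccursAt_of_agree_outside hf.1 hg hMN X h)

/-- A newform has no forms with its eigensystem (outside a finite set) at a proper divisor. -/
theorem IsNewform.goodSpace_finset_eq_bot {N M : ℕ} [NeZero N] [NeZero M]
    {f : CuspForm (Gamma0 N) 2} (hf : f.IsNewform) (hMN : M ∣ N) (hne : M ≠ N) (X : Finset ℕ) :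
    goodSpace M {ℓ | ℓ ∈ X ∨ ℓ ∣ N} (fun ℓ => qCoeff ⇑f ℓ) = ⊥ := by
  by_contra h
  obtain ⟨g, hg, hgℓ⟩ := exists_eigenform_of_goodSpace h
  exact IsNewform.not_agree_outside hf hg hMN hne X fun ℓ hℓ hℓN hℓX =>
    hgℓ ℓ hℓ (fun hd => hℓN (hd.trans hMN)) (by simp [hℓN, hℓX])

/-- An eigensystem of level `M` occurs at every multiple of `M`. -/
theorem exists_eigenform_of_dvd {M C : ℕ} [NeZero M] [NeZero C] (hMC : M ∣ C)
    {g : CuspForm (Gamma0 M) 2} (hg : g.IsNormalizedEigenform) :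
    ∃ f : CuspForm (Gamma0 C) 2, f.IsNormalizedEigenform ∧
      ∀ ℓ : ℕ, ℓ.Prime → ¬ ℓ ∣ C → qCoeff ⇑f ℓ = qCoeff ⇑g ℓ := by
  have hmem : incl hMC g ∈ goodSpace C ∅ (fun ℓ => qCoeff ⇑g ℓ) := fun ℓ hℓ hℓC _ => by
    rw [heckeTLin_incl hMC hℓ hℓC, eigen_heckeTLin hg hℓ fun hd => hℓC (hd.trans hMC), map_smul]
  have hne : goodSpace C ∅ (fun ℓ => qCoeff ⇑g ℓ) ≠ ⊥ := fun h0 => by
    rw [h0, Submodule.mem_bot] at hmem
    exact hg.ne_zero (incl_injective hMC (hmem.trans (map_zero _).symm))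
  obtain ⟨f, hf, hfℓ⟩ := exists_eigenform_of_goodSpace hne
  exact ⟨f, hf, fun ℓ hℓ hℓC => hfℓ ℓ hℓ hℓC (Set.notMem_empty ℓ)⟩

/-- Modularity of level `M` gives modularity of every multiple of `M`. -/
theorem isModularModelOfLevel_of_dvd {W : WeierstrassCurve ℤ} {M C : ℕ} [NeZero M] [NeZero C]
    (hMC : M ∣ C) (h : W.IsModularModelOfLevel M) : W.IsModularModelOfLevel C := by
  obtain ⟨g, hg, hgW⟩ := h
  obtain ⟨f, hf, hfg⟩ := exists_eigenform_of_dvd hMC hg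
  exact ⟨f, hf, fun p hp hgood hpC => by
    rw [hfg p hp hpC, hgW p hp hgood fun hd => hpC (hd.trans hMC)]⟩

end Fermat.Agent.Newform
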