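import Fermat.Agent.Hecke.Lifting
import Fermat.Agent.Hecke.IntegralBasis
import Fermat.Prelude.Def_CuspForm_Newforms

/-!
Eigenforms, their characters and the extraction of eigenforms from eigenspaces of the good
Hecke operators.
-/

set_option autoImplicit false

noncomputable section

open CongruenceSubgroup ModularFormClass

namespace Fermat.Agent.Newform

open Fermat.Agent.Hecke

variable {M : ℕ}

instance finiteDimensional_cusp [NeZero M] (k : ℤ) :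
    FiniteDimensional ℂ (CuspForm (Gamma0 M) k) :=
  finiteDimensional_of_hasIntegralStructure (hasIntegralStructure M k)

variable [NeZero M]

/-- Forms on which `T_ℓ` is multiplication by `a ℓ` for good primes `ℓ` outside `X`. -/
def goodSpace (M : ℕ) [NeZero M] (X : Set ℕ) (a : ℕ → ℂ) :
    Submodule ℂ (CuspForm (Gamma0 M) 2) where
  carrier := {g | ∀ (ℓ : ℕ) (hℓ : ℓ.Prime) (hℓM : ¬ ℓ ∣ M), ℓ ∉ X →
    CuspForm.heckeTLin 2 hℓ hℓM g = a ℓ • g}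
  zero_mem' := fun ℓ hℓ hℓM _ => by rw [map_zero, smul_zero]
  add_mem' := fun {f g} hf hg ℓ hℓ hℓM hX => by
    rw [map_add, hf ℓ hℓ hℓM hX, hg ℓ hℓ hℓM hX, smul_add]
  smul_mem' := fun c g hg ℓ hℓ hℓM hX => by rw [map_smul, hg ℓ hℓ hℓM hX, smul_comm]

theorem mem_goodSpace {X : Set ℕ} {a : ℕ → ℂ} {g : CuspForm (Gamma0 M) 2} :
    g ∈ goodSpace M X a ↔ ∀ (ℓ : ℕ) (hℓ : ℓ.Prime) (hℓM : ¬ ℓ ∣ M), ℓ ∉ X →
      CuspForm.heckeTLin 2 hℓ hℓM g = a ℓ • g := Iff.rfl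

theorem goodSpace_mono {X Y : Set ℕ} (h : X ⊆ Y) (a : ℕ → ℂ) :
    goodSpace M X a ≤ goodSpace M Y a :=
  fun _ hg ℓ hℓ hℓM hY => hg ℓ hℓ hℓM fun hX => hY (h hX)

theorem heckeAlgebra_mem_goodSpace {X : Set ℕ} {a : ℕ → ℂ} {g : CuspForm (Gamma0 M) 2}
    (hg : g ∈ goodSpace M X a) (t : CuspForm.heckeAlgebra M 2 (∅ : Set ℕ)) :
    (t : Module.End ℂ (CuspForm (Gamma0 M) 2)) g ∈ goodSpace M X a := by
  intro ℓ hℓ hℓM hX
  have h := congrArg Subtype.val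
    (mul_comm (CuspForm.heckeAlgebra.T (k := 2) hℓ hℓM (Set.notMem_empty ℓ)) t)
  rw [MulMemClass.coe_mul, MulMemClass.coe_mul, CuspForm.heckeAlgebra.coe_T] at h
  have h' := LinearMap.congr_fun h g
  rw [Module.End.mul_apply, Module.End.mul_apply, hg ℓ hℓ hℓM hX, map_smul] at h'
  exact h'

/-- A nonzero simultaneous eigenspace of good operators contains a normalised eigenform. -/
theorem exists_eigenform_of_goodSpace {X : Set ℕ} {a : ℕ → ℂ} (h : goodSpace M X a ≠ ⊥) :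
    ∃ f : CuspForm (Gamma0 M) 2, f.IsNormalizedEigenform ∧
      ∀ ℓ : ℕ, ℓ.Prime → ¬ ℓ ∣ M → ℓ ∉ X → qCoeff ⇑f ℓ = a ℓ := by
  let ρ : CuspForm.heckeAlgebra M 2 (∅ : Set ℕ) →+* Module.End ℂ (CuspForm (Gamma0 M) 2) :=
    (CuspForm.heckeAlgebra M 2 (∅ : Set ℕ)).val.toRingHom
  obtain ⟨g, hg, hg0, heig⟩ :=
    exists_common_eigenvector ρ _ _ rfl h fun t w hw => heckeAlgebra_mem_goodSpace hw t
  obtain ⟨χ, hχ⟩ := exists_character ρ hg0 heig
  obtain ⟨f, hf, hfℓ⟩ := exists_eigenform_of_character hg0 χ hχ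
  refine ⟨f, hf, fun ℓ hℓ hℓM hX => ?_⟩
  rw [hfℓ ℓ hℓ hℓM]
  refine smul_left_injective ℂ hg0 ?_
  show χ _ • g = a ℓ • g
  rw [← hχ, ← hg ℓ hℓ hℓM hX]
  rfl

section Eigenform

variable {f : CuspForm (Gamma0 M) 2}

theorem eigen_prime_pow_mul (hf : f.IsNormalizedEigenform) {p : ℕ} (hp : p.Prime) (n : ℕ) :
    qCoeff ⇑f (n * p) +
        (if p ∣ n then (if p ∣ M then 0 else (p : ℂ)) * qCoeff ⇑f (n / p) else 0) =
      qCoeff ⇑f p * qCoeff ⇑f n := by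
  rcases Nat.eq_zero_or_pos n with rfl | hn
  · simp [qCoeff_cusp_zero]
  obtain ⟨r, m, hm, rfl⟩ := Nat.exists_eq_pow_mul_and_not_dvd hn.ne' p hp.ne_one
  have hcop : ∀ s, (p ^ s).Coprime m := fun s =>
    Nat.Coprime.pow_left _ ((Nat.Prime.coprime_iff_not_dvd hp).mpr hm)
  have hmul : ∀ s, qCoeff ⇑f (p ^ s * m) = qCoeff ⇑f (p ^ s) * qCoeff ⇑f m := fun s =>
    hf.qCoeff_mul_of_coprime _ _ (hcop s)
  have hnp : p ^ r * m * p = p ^ (r + 1) * m := by rw [pow_succ]; ring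
  rw [hnp, hmul, hmul]
  rcases r with _ | r
  · rw [if_neg (by simpa using hm), add_zero, zero_add, pow_one, pow_zero, hf.qCoeff_one]
    ring
  · have hdiv : p ^ (r + 1) * m / p = p ^ r * m := by
      rw [pow_succ, mul_right_comm, Nat.mul_div_cancel _ hp.pos]
    rw [if_pos ((dvd_pow_self p r.succ_ne_zero).mul_right m), hdiv, hmul]
    by_cases hpM : p ∣ M
    · rw [if_pos hpM, hf.qCoeff_prime_pow_of_dvd p r hp hpM]
      ring
    · rw [if_neg hpM, hf.qCoeff_prime_pow_of_not_dvd p r hp hpM]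
      ring

theorem eigen_heckeTLin (hf : f.IsNormalizedEigenform) {ℓ : ℕ} (hℓ : ℓ.Prime) (hℓM : ¬ ℓ ∣ M) :
    CuspForm.heckeTLin 2 hℓ hℓM f = qCoeff ⇑f ℓ • f := by
  refine cuspForm_ext_qCoeff fun n => ?_
  rw [qCoeff_heckeTLin hℓ hℓM, qCoeff_smul, ← eigen_prime_pow_mul hf hℓ n, if_neg hℓM,
    show ((2 : ℤ) - 1) = 1 by norm_num, zpow_one]

theorem eigen_heckeULin (hf : f.IsNormalizedEigenform) {q : ℕ} (hq : q.Prime) (hqM : q ∣ M) :
    CuspForm.heckeULin 2 hqM f = qCoeff ⇑f q • f := by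
  refine cuspForm_ext_qCoeff fun n => ?_
  rw [qCoeff_heckeULin hq hqM, qCoeff_smul, ← eigen_prime_pow_mul hf hq n, if_pos hqM, zero_mul,
    ite_self, add_zero]

/-- The character of an eigenform. -/
theorem exists_character_of_eigenform (hf : f.IsNormalizedEigenform) (S : Set ℕ) :
    ∃ χ : CuspForm.heckeAlgebra M 2 S →+* ℂ,
      (∀ t : CuspForm.heckeAlgebra M 2 S,
        (t : Module.End ℂ (CuspForm (Gamma0 M) 2)) f = χ t • f) ∧
      (∀ (ℓ : ℕ) (hℓ : ℓ.Prime) (hℓM : ¬ ℓ ∣ M) (hℓS : ℓ ∉ S),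
        χ (CuspForm.heckeAlgebra.T hℓ hℓM hℓS) = qCoeff ⇑f ℓ) ∧
      (∀ (q : ℕ) (hq : q.Prime) (hqM : q ∣ M) (hqS : q ∉ S),
        χ (CuspForm.heckeAlgebra.U hq hqM hqS) = qCoeff ⇑f q) := by
  let ρ : CuspForm.heckeAlgebra M 2 S →+* Module.End ℂ (CuspForm (Gamma0 M) 2) :=
    (CuspForm.heckeAlgebra M 2 S).val.toRingHom
  have key : ∀ t : CuspForm.heckeAlgebra M 2 S, ∃ c : ℂ, ρ t f = c • f := by
    intro t
    obtain ⟨t, ht⟩ := t
    show ∃ c : ℂ, t f = c • f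
    induction ht using Algebra.adjoin_induction with
    | mem x hx =>
      rcases hx with ⟨ℓ, hℓ, hℓM, -, rfl⟩ | ⟨q, hqM, hq, -, rfl⟩
      · exact ⟨_, eigen_heckeTLin hf hℓ hℓM⟩
      · exact ⟨_, eigen_heckeULin hf hq hqM⟩
    | algebraMap r => exact ⟨r, by rw [Module.algebraMap_end_apply, Int.cast_smul_eq_zsmul]⟩
    | add x y _ _ hx hy =>
      obtain ⟨a, ha⟩ := hx
      obtain ⟨b, hb⟩ := hy
      exact ⟨a + b, by rw [LinearMap.add_apply, ha, hb, add_smul]⟩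
    | mul x y _ _ hx hy =>
      obtain ⟨a, ha⟩ := hx
      obtain ⟨b, hb⟩ := hy
      exact ⟨a * b, by rw [Module.End.mul_apply, hb, map_smul, ha, smul_smul, mul_comm]⟩
  obtain ⟨χ, hχ⟩ := exists_character ρ hf.ne_zero key
  refine ⟨χ, hχ, fun ℓ hℓ hℓM hℓS => smul_left_injective ℂ hf.ne_zero ?_,
    fun q hq hqM hqS => smul_left_injective ℂ hf.ne_zero ?_⟩
  · show χ _ • f = _ • f
    rw [← hχ, ← eigen_heckeTLin hf hℓ hℓM]
    rfl
  · show χ _ • f = _ • f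
    rw [← hχ, ← eigen_heckeULin hf hq hqM]
    rfl

theorem mem_goodSpace_of_eigenform (hf : f.IsNormalizedEigenform) (X : Set ℕ) :
    f ∈ goodSpace M X (fun ℓ => qCoeff ⇑f ℓ) :=
  fun _ hℓ hℓM _ => eigen_heckeTLin hf hℓ hℓM

end Eigenform

section Newform

/-- Any eigenform has the good eigensystem of a newform of some level dividing the level. -/
theorem exists_newform_of_eigenform {N : ℕ} (hN : 0 < N) {f : CuspForm (Gamma0 N) 2}
    (hf : f.IsNormalizedEigenform) :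
    ∃ (L : ℕ) (g : CuspForm (Gamma0 L) 2), L ∣ N ∧ 0 < L ∧ g.IsNewform ∧
      ∀ ℓ : ℕ, ℓ.Prime → ¬ ℓ ∣ N → qCoeff ⇑g ℓ = qCoeff ⇑f ℓ := by
  induction N using Nat.strong_induction_on with
  | _ N IH =>
    by_cases h : ∃ K, K ∣ N ∧ K ≠ N ∧ CuspForm.GoodEigensystemOccursAt f K
    · obtain ⟨K, hKN, hne, g, hg, hfg⟩ := h
      have hK : 0 < K := Nat.pos_of_dvd_of_pos hKN hN
      obtain ⟨L, g', hLK, hL, hg', hgg'⟩ :=
        IH K (lt_of_le_of_ne (Nat.le_of_dvd hN hKN) hne) hK hg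
      exact ⟨L, g', hLK.trans hKN, hL, hg', fun ℓ hℓ hℓN =>
        (hgg' ℓ hℓ fun hd => hℓN (hd.trans hKN)).trans (hfg ℓ hℓ hℓN)⟩
    · push Not at h
      exact ⟨N, f, dvd_rfl, hN, ⟨hf, h⟩, fun _ _ _ => rfl⟩

/-- A newform has no forms with its good eigensystem at a proper divisor of the level. -/
theorem IsNewform.goodSpace_eq_bot {N : ℕ} {f : CuspForm (Gamma0 N) 2} (hf : f.IsNewform)
    (hMN : M ∣ N) (hne : M ≠ N) :
    goodSpace M {ℓ | ℓ ∣ N} (fun ℓ => qCoeff ⇑f ℓ) = ⊥ := by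
  by_contra h
  obtain ⟨g, hg, hgℓ⟩ := exists_eigenform_of_goodSpace h
  exact hf.2 M hMN hne ⟨g, hg, fun ℓ hℓ hℓN => hgℓ ℓ hℓ (fun hd => hℓN (hd.trans hMN)) hℓN⟩

end Newform

end Fermat.Agent.Newform
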