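import Fermat.Agent.Hecke.LatticeFinite

/-!
An eigen-series in the span of reductions of integral cusp forms of weight two gives a character
of the Hecke algebra.
-/

set_option autoImplicit false
set_option maxHeartbeats 800000

noncomputable section

open CongruenceSubgroup ModularFormClass

namespace Fermat.Agent.Newform

variable {m : ℕ} {k : Type*} [Field k]

/-- `w` is the reduction of the integral cusp form `f`. -/
def IsRedSeries (f : CuspForm (Gamma0 m) 2) (w : PowerSeries k) : Prop :=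
  ∀ n : ℕ, ∃ z : ℤ, qCoeff ⇑f n = (z : ℂ) ∧ PowerSeries.coeff n w = (z : k)

variable (m k) in
/-- The span of reductions of integral cusp forms of weight two. -/
def redSpace : Submodule k (PowerSeries k) :=
  Submodule.span k {w | ∃ f : CuspForm (Gamma0 m) 2, IsRedSeries f w}

theorem IsRedSeries.mem_redSpace {f : CuspForm (Gamma0 m) 2} {w : PowerSeries k}
    (h : IsRedSeries f w) : w ∈ redSpace m k :=
  Submodule.subset_span ⟨f, h⟩

theorem exists_isRedSeries {f : CuspForm (Gamma0 m) 2}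
    (hf : ∀ n, ∃ z : ℤ, qCoeff ⇑f n = (z : ℂ)) : ∃ w : PowerSeries k, IsRedSeries f w := by
  choose z hz using hf
  exact ⟨PowerSeries.mk fun n => (z n : k), fun n => ⟨z n, hz n, by simp⟩⟩

variable (k) in
/-- The formal operator `T ℓ` in weight two. -/
def heckeSeries (ℓ : ℕ) : PowerSeries k →ₗ[k] PowerSeries k where
  toFun w := PowerSeries.mk fun n =>
    PowerSeries.coeff (n * ℓ) w + if ℓ ∣ n then (ℓ : k) * PowerSeries.coeff (n / ℓ) w else 0
  map_add' u v := by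
    ext n
    simp only [PowerSeries.coeff_mk, map_add]
    split_ifs <;> ring
  map_smul' c u := by
    ext n
    simp only [PowerSeries.coeff_mk, map_smul, smul_eq_mul, RingHom.id_apply]
    split_ifs <;> ring

theorem coeff_heckeSeries (ℓ n : ℕ) (w : PowerSeries k) :
    PowerSeries.coeff n (heckeSeries k ℓ w) =
      PowerSeries.coeff (n * ℓ) w + if ℓ ∣ n then (ℓ : k) * PowerSeries.coeff (n / ℓ) w else 0 := by
  simp [heckeSeries]

theorem IsRedSeries.heckeTLin [NeZero m] {f : CuspForm (Gamma0 m) 2} {w : PowerSeries k}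
    (h : IsRedSeries f w) {ℓ : ℕ} (hℓ : ℓ.Prime) (hℓm : ¬ ℓ ∣ m) :
    IsRedSeries (CuspForm.heckeTLin 2 hℓ hℓm f) (heckeSeries k ℓ w) := by
  intro n
  obtain ⟨a, ha, ha'⟩ := h (n * ℓ)
  obtain ⟨b, hb, hb'⟩ := h (n / ℓ)
  refine ⟨a + if ℓ ∣ n then (ℓ : ℤ) * b else 0, ?_, ?_⟩
  · rw [Hecke.qCoeff_heckeTLin hℓ hℓm, ha, hb, show ((2 : ℤ) - 1) = 1 by norm_num, zpow_one]
    split_ifs <;> push_cast <;> ring
  · rw [coeff_heckeSeries, ha', hb']
    split_ifs <;> push_cast <;> ring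

/-- An eigen-series in the span of reduced cusp forms gives a character of the Hecke algebra. -/
theorem exists_theta_of_series [NeZero m] (S : Set ℕ) (hS : ∀ q : ℕ, q.Prime → q ∣ m → q ∈ S)
    (w : PowerSeries k) (hw : w ≠ 0) (hmem : w ∈ redSpace m k) (a : ℕ → k)
    (heig : ∀ ℓ : ℕ, ℓ.Prime → ¬ ℓ ∣ m → ℓ ∉ S → ∀ n : ℕ,
      PowerSeries.coeff (n * ℓ) w + (if ℓ ∣ n then (ℓ : k) * PowerSeries.coeff (n / ℓ) w else 0) =
        a ℓ * PowerSeries.coeff n w) :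
    ∃ θ : CuspForm.heckeAlgebra m 2 S →+* k,
      ∀ (ℓ : ℕ) (hℓ : ℓ.Prime) (hℓm : ¬ ℓ ∣ m) (hℓS : ℓ ∉ S),
        θ (CuspForm.heckeAlgebra.T hℓ hℓm hℓS) = a ℓ := by
  let Q : Module.End ℂ (CuspForm (Gamma0 m) 2) → k → Prop := fun t c =>
    ∃ E : PowerSeries k →ₗ[k] PowerSeries k,
      (∀ f u, IsRedSeries f u → IsRedSeries (t f) (E u)) ∧ E w = c • w
  -- uniqueness
  have huniq : ∀ t c c', Q t c → Q t c' → c = c' := by
    rintro t c c' ⟨E, hE, hEw⟩ ⟨E', hE', hEw'⟩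
    have hEE : E w = E' w := by
      refine LinearMap.eqOn_span (R := k) ?_ hmem
      rintro u ⟨f, hf⟩
      ext n
      obtain ⟨z, hz, hz'⟩ := hE f u hf n
      obtain ⟨z', hzz, hzz'⟩ := hE' f u hf n
      rw [hz', hzz', Int.cast_injective (α := ℂ) (hz.symm.trans hzz)]
    rw [hEw, hEw'] at hEE
    exact smul_left_injective k hw hEE
  have hadd : ∀ t t' c c', Q t c → Q t' c' → Q (t + t') (c + c') := by
    rintro t t' c c' ⟨E, hE, hEw⟩ ⟨E', hE', hEw'⟩
    refine ⟨E + E', fun f u hf n => ?_, by rw [LinearMap.add_apply, hEw, hEw', add_smul]⟩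
    obtain ⟨z, hz, hz'⟩ := hE f u hf n
    obtain ⟨z', hzz, hzz'⟩ := hE' f u hf n
    refine ⟨z + z', ?_, ?_⟩
    · rw [LinearMap.add_apply, Hecke.qCoeff_add, hz, hzz, Int.cast_add]
    · rw [LinearMap.add_apply, map_add, hz', hzz', Int.cast_add]
  have hmul : ∀ t t' c c', Q t c → Q t' c' → Q (t * t') (c * c') := by
    rintro t t' c c' ⟨E, hE, hEw⟩ ⟨E', hE', hEw'⟩
    refine ⟨E.comp E', fun f u hf => hE _ _ (hE' f u hf), ?_⟩
    rw [LinearMap.comp_apply, hEw', map_smul, hEw, smul_smul, mul_comm]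
  have hint : ∀ r : ℤ, Q (algebraMap ℤ _ r) (r : k) := by
    intro r
    refine ⟨(r : k) • LinearMap.id, fun f u hf n => ?_, rfl⟩
    obtain ⟨z, hz, hz'⟩ := hf n
    refine ⟨r * z, ?_, ?_⟩
    · rw [Module.algebraMap_end_apply, Hecke.qCoeff_intCast_smul, hz]
      push_cast; ring
    · rw [LinearMap.smul_apply, LinearMap.id_apply, map_smul, hz', smul_eq_mul]
      push_cast; ring
  have hgen : ∀ (ℓ : ℕ) (hℓ : ℓ.Prime) (hℓm : ¬ ℓ ∣ m), ℓ ∉ S →
      Q (CuspForm.heckeTLin 2 hℓ hℓm) (a ℓ) := fun ℓ hℓ hℓm hℓS =>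
    ⟨heckeSeries k ℓ, fun f u hf => hf.heckeTLin hℓ hℓm, by
      ext n; rw [coeff_heckeSeries, map_smul, smul_eq_mul]; exact heig ℓ hℓ hℓm hℓS n⟩
  have hex : ∀ t : CuspForm.heckeAlgebra m 2 S, ∃ c, Q t c := by
    rintro ⟨t, ht⟩
    induction ht using Algebra.adjoin_induction with
    | mem x hx =>
      rcases hx with ⟨ℓ, hℓ, hℓm, hℓS, rfl⟩ | ⟨q, hqm, hq, hqS, rfl⟩
      · exact ⟨a ℓ, hgen ℓ hℓ hℓm hℓS⟩
      · exact absurd (hS q hq hqm) hqS
    | algebraMap r => exact ⟨r, hint r⟩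
    | add x y _ _ hx hy =>
      obtain ⟨c, hc⟩ := hx; obtain ⟨c', hc'⟩ := hy
      exact ⟨c + c', hadd _ _ _ _ hc hc'⟩
    | mul x y _ _ hx hy =>
      obtain ⟨c, hc⟩ := hx; obtain ⟨c', hc'⟩ := hy
      exact ⟨c * c', hmul _ _ _ _ hc hc'⟩
  choose θ hθ using hex
  have h1 : θ 1 = 1 := huniq _ _ _ (hθ 1) (by simpa using hint 1)
  have h0 : θ 0 = 0 := huniq _ _ _ (hθ 0) (by simpa using hint 0)
  exact ⟨{ toFun := θ, map_one' := h1, map_zero' := h0
           map_add' := fun s t => huniq _ _ _ (hθ _) (hadd _ _ _ _ (hθ s) (hθ t))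
           map_mul' := fun s t => huniq _ _ _ (hθ _) (hmul _ _ _ _ (hθ s) (hθ t)) },
    fun ℓ hℓ hℓm hℓS => huniq _ _ _ (hθ _) (hgen ℓ hℓ hℓm hℓS)⟩

end Fermat.Agent.Newform
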