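import Fermat.Agent.Newform.Slash

/-!
Atkin–Lehner involution, trace to a lower level, and the bad coefficients of newforms.
-/

set_option autoImplicit false

noncomputable section

open CongruenceSubgroup ModularFormClass UpperHalfPlane ModularForm Matrix.SpecialLinearGroup
open scoped MatrixGroups

namespace Fermat.Agent.Newform

open Fermat.Agent.Hecke
open Fermat.Agent.GalRep (IMat heckeRep det_heckeRep exists_eq_mul_heckeRep mul_heckeRep_none
  mul_heckeRep_some)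
open P2MW.S_ModularForm_heckeU_slash_eq_self_of_mem_Gamma0.ModularForm.HeckeSlashInvariance in
/-- `U_q` lowers the level when `q` divides it twice. -/
theorem exists_lower_heckeU {N m q : ℕ} [NeZero N] [NeZero m] (hq : q ≠ 0) (hqm : q ∣ m)
    (h : N ∣ q * m) {k : ℤ} (f : CuspForm (Gamma0 N) k) :
    ∃ g : CuspForm (Gamma0 m) k, ⇑g = heckeU k q ⇑f := by
  haveI : NeZero q := ⟨hq⟩
  refine ⟨mkCusp (heckeU k q ⇑f) (fun γ hγ => ?_) (mdifferentiable_heckeU (CuspFormClass.holo f) k q)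
    (fun c hc => CuspFormClass.isZeroAt_heckeU f q
      (by rwa [Subgroup.IsArithmetic.isCusp_iff_isCusp_SL2Z])), rfl⟩
  have hm : (m : ℤ) ∣ γ 1 0 := mem_Gamma0_iff_dvd.mp hγ
  have hc : (q : ℤ) ∣ γ 1 0 := (Int.natCast_dvd_natCast.mpr hqm).trans hm
  rw [SL_slash, heckeU_eq_sum_zmod k ⇑f, SlashAction.sum_slash]
  calc ∑ x : ZMod q, (⇑f ∣[k] heckeMatrix q x.val) ∣[k] mapGL ℝ γ
      = ∑ x : ZMod q, ⇑f ∣[k] heckeMatrix q
          (affinePerm γ ((ZMod.intCast_zmod_eq_zero_iff_dvd _ _).mpr hc) x).val := by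
        refine Finset.sum_congr rfl fun x _ => ?_
        obtain ⟨g', hg', hmul⟩ := heckeMatrix_mul_of_dvd γ hc x
        have hg'N : g' ∈ Gamma0 N := by
          refine mem_Gamma0_iff_dvd.mpr ?_
          have hd : ((q * m : ℕ) : ℤ) ∣ g' 1 0 := by
            rw [hg']
            push_cast
            exact mul_dvd_mul_left _ hm
          exact (Int.natCast_dvd_natCast.mpr h).trans hd
        rw [← SlashAction.slash_mul, hmul, SlashAction.slash_mul,
          SlashInvariantFormClass.slash_action_eq f _ (Subgroup.mem_map_of_mem (mapGL ℝ) hg'N)]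
    _ = ∑ x : ZMod q, ⇑f ∣[k] heckeMatrix q x.val :=
        Equiv.sum_comp (affinePerm γ _) (fun x => ⇑f ∣[k] heckeMatrix q x.val)

/-- Data for the Atkin–Lehner involution at an exact prime divisor. -/
structure ALData where
  q : ℕ
  m : ℕ
  x : ℤ
  z : ℤ
  hq : q.Prime
  hm : 0 < m
  eqn : x * q - m * z = 1

/-- Atkin–Lehner data exists at every exact prime divisor. -/
theorem exists_alData {q m : ℕ} (hq : q.Prime) (hm : 0 < m) (h : ¬ q ∣ m) :
    ∃ D : ALData, D.q = q ∧ D.m = m := by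
  obtain ⟨a, b, hab⟩ := Int.isCoprime_iff_nat_coprime.mpr
    (show Nat.Coprime (q : ℤ).natAbs (m : ℤ).natAbs from (Nat.Prime.coprime_iff_not_dvd hq).mpr h)
  exact ⟨⟨q, m, a, -b, hq, hm, by linear_combination hab⟩, rfl, rfl⟩

namespace ALData

variable (D : ALData)

/-- The level. -/
abbrev level : ℕ := D.q * D.m

instance : NeZero D.level := ⟨(Nat.mul_pos D.hq.pos D.hm).ne'⟩

instance : NeZero D.m := ⟨D.hm.ne'⟩

/-- The matrix of the involution. -/
def mat : IMat := !![(D.q : ℤ) * D.x, 1; (D.q : ℤ) * D.m * D.z, D.q]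

theorem det_mat : D.mat.det = D.q := by
  rw [mat, Matrix.det_fin_two_of]
  linear_combination (D.q : ℤ) * D.eqn

theorem det_mat_pos : 0 < D.mat.det := by
  rw [det_mat]
  exact_mod_cast D.hq.pos

theorem exists_move (X : IMat) (hX : (D.level : ℤ) ∣ X 1 0) :
    ∃ B : IMat, (D.level : ℤ) ∣ B 1 0 ∧ B.det = X.det ∧ D.mat * X = B * D.mat := by
  obtain ⟨c, hc⟩ := hX
  push_cast at hc
  set a := X 0 0
  set b := X 0 1
  set d := X 1 1
  refine ⟨!![(D.q : ℤ) * D.x * a + D.q * D.m * c - D.m * D.z * (D.q * D.x * b + d),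
      -D.x * a - D.m * c + D.x * (D.q * D.x * b + d);
      (D.q : ℤ) * D.m * (D.z * a + D.q * c - D.m * D.z * D.z * b - D.z * d),
      -(D.m : ℤ) * D.z * a - D.q * D.m * c + D.x * (D.q * D.m * D.z * b + D.q * d)], ?_, ?_, ?_⟩
  · simp
  · rw [Matrix.det_fin_two_of, Matrix.det_fin_two, hc]
    linear_combination (a * d - b * (D.q * D.m * c)) * (D.x * D.q - D.m * D.z + 1) * D.eqn
  · ext i j
    fin_cases i <;> fin_cases j <;> simp [mat, Matrix.mul_apply, Fin.sum_univ_two, hc]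
    all_goals first
      | ring1
      | linear_combination (-((D.q : ℤ) * D.x * a + D.q * D.m * c)) * D.eqn
      | linear_combination ((D.q : ℤ) * D.x * a + D.q * D.m * c) * D.eqn
      | linear_combination (-((D.q : ℤ) * D.x * b + d)) * D.eqn
      | linear_combination ((D.q : ℤ) * D.x * b + d) * D.eqn
      | linear_combination (-((D.q : ℤ) * D.m * (D.z * a + D.q * c))) * D.eqn
      | linear_combination ((D.q : ℤ) * D.m * (D.z * a + D.q * c)) * D.eqn
      | linear_combination (-((D.q : ℤ) * D.m * D.z * b + D.q * d)) * D.eqn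
      | linear_combination ((D.q : ℤ) * D.m * D.z * b + D.q * d) * D.eqn

theorem carries_mat : Carries D.mat D.level D.level := by
  intro γ hγ
  obtain ⟨B, hB, hdet, he⟩ := D.exists_move γ (mem_Gamma0_iff_dvd.mp hγ)
  rw [γ.det_coe] at hdet
  exact ⟨⟨B, hdet⟩, mem_Gamma0_iff_dvd.mpr hB, he⟩

/-- The Atkin–Lehner operator. -/
def op : CuspForm (Gamma0 D.level) 2 →ₗ[ℂ] CuspForm (Gamma0 D.level) 2 :=
  cuspSlash D.mat D.det_mat_pos D.carries_mat

theorem op_comm {ℓ : ℕ} (hℓ : ℓ.Prime) (hℓM : ¬ ℓ ∣ D.level)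
    (f : CuspForm (Gamma0 D.level) 2) :
    CuspForm.heckeTLin 2 hℓ hℓM (D.op f) = D.op (CuspForm.heckeTLin 2 hℓ hℓM f) := by
  refine heckeTLin_cuspSlash D.det_mat_pos D.carries_mat hℓ hℓM hℓM ?_ (fun i => ?_) f
  · rw [det_mat]
    intro hd
    exact hℓM ((Int.natCast_dvd_natCast.mp hd).mul_right _)
  obtain ⟨B, hB, hdet, he⟩ := D.exists_move (heckeRep ℓ i)
    (by rw [Fermat.Agent.GalRep.heckeRep_one_zero]; exact dvd_zero _)
  rw [det_heckeRep] at hdet
  obtain ⟨j, G, hG⟩ := exists_eq_mul_heckeRep hℓ B (by rw [hdet])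
  have hG1 : G.det = 1 := by
    have := congrArg Matrix.det hG
    rw [hdet, Matrix.det_mul, det_heckeRep] at this
    exact mul_right_cancel₀ (Int.natCast_ne_zero.mpr hℓ.ne_zero) (this.symm.trans (one_mul _).symm)
  have hG0 : (D.level : ℤ) ∣ G 1 0 := by
    rw [hG] at hB
    cases j with
    | none =>
      rw [mul_heckeRep_none] at hB
      refine (Int.isCoprime_iff_gcd_eq_one.mpr ?_).dvd_of_dvd_mul_right (by simpa using hB)
      exact ((Nat.Prime.coprime_iff_not_dvd hℓ).mpr hℓM).symm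
    | some b =>
      rw [mul_heckeRep_some] at hB
      simpa using hB
  exact ⟨j, ⟨G, hG1⟩, mem_Gamma0_iff_dvd.mpr hG0, by rw [he, hG, mul_assoc]⟩

theorem slash_scalar (f : ℍ → ℂ) (q : ℕ) (hq : q ≠ 0) :
    f ∣[(2 : ℤ)] intGL !![(q : ℤ), 0; 0, (q : ℤ)] = f := by
  have h : (!![(q : ℤ), 0; 0, (q : ℤ)] : IMat) = !![(q : ℤ), 0; 0, 1] * !![1, ((0 : ℕ) : ℤ); 0, (q : ℤ)] := by
    ext i j
    fin_cases i <;> fin_cases j <;> simp
  have hq' : (q : ℂ) ≠ 0 := by exact_mod_cast hq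
  rw [h, intGL_mul (by simp [Matrix.det_fin_two, hq]) (by simp [Matrix.det_fin_two, hq]),
    ← heckeDiagMatrix_eq_intGL hq, ← heckeMatrix_eq_intGL hq, SlashAction.slash_mul]
  funext τ
  rw [slash_heckeMatrix_apply _ hq, slash_heckeDiagMatrix_apply _ hq]
  have hτ : heckeDiagMatrix q • heckeMatrix q 0 • τ = τ := by
    ext
    rw [coe_heckeDiagMatrix_smul hq, coe_heckeMatrix_smul hq]
    field_simp
    simp
  rw [hτ, show ((2 : ℤ) - 1) = 1 by norm_num, zpow_one, ← mul_assoc, inv_mul_cancel₀ hq', one_mul]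

theorem op_op (f : CuspForm (Gamma0 D.level) 2) : D.op (D.op f) = f := by
  refine DFunLike.coe_injective ?_
  rw [op, coe_cuspSlash, coe_cuspSlash, ← SlashAction.slash_mul,
    ← intGL_mul D.det_mat_pos.ne' D.det_mat_pos.ne']
  let G : IMat := !![(D.q : ℤ) * D.x * D.x + D.m * D.z, D.x + 1;
    (D.q : ℤ) * D.m * D.z * (D.x + 1), D.m * D.z + D.q]
  have hG : G.det = 1 := by
    simp only [G, Matrix.det_fin_two_of]
    linear_combination (D.x * D.q - D.m * D.z + 1) * D.eqn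
  have he : D.mat * D.mat = G * !![(D.q : ℤ), 0; 0, (D.q : ℤ)] := by
    ext i j
    fin_cases i <;> fin_cases j <;> simp [mat, G, Matrix.mul_apply, Fin.sum_univ_two] <;> ring
  rw [he, intGL_mul (by rw [hG]; exact one_ne_zero)
      (by simp [Matrix.det_fin_two, D.hq.ne_zero]), SlashAction.slash_mul,
    show G = ((⟨G, hG⟩ : SL(2, ℤ)) : IMat) from rfl, slash_intGL_coe,
    slash_Gamma0 f (mem_Gamma0_iff_dvd.mpr ⟨D.z * (D.x + 1), by simp [G]; ring⟩), slash_scalar _ _ D.hq.ne_zero]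

/-- Coset representatives of the level in the lower level. -/
def cosetRep : Option (Fin D.q) → SL(2, ℤ)
  | none => 1
  | some j => ⟨!![D.x, D.x * (j : ℕ) + 1; D.m * D.z, D.m * D.z * (j : ℕ) + D.q], by
      rw [Matrix.det_fin_two_of]; linear_combination D.eqn⟩

theorem dvd_cosetRep (i : Option (Fin D.q)) : (D.m : ℤ) ∣ (D.cosetRep i : IMat) 1 0 := by
  cases i <;> simp [cosetRep]

theorem not_dvd_mz : ¬ (D.q : ℤ) ∣ D.m * D.z := fun hd => by
  have h1 : (D.q : ℤ) ∣ 1 := D.eqn ▸ dvd_sub (dvd_mul_left _ _) hd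
  exact D.hq.not_dvd_one (by exact_mod_cast h1)

theorem level_dvd_iff {c : ℤ} : (D.level : ℤ) ∣ c ↔ (D.q : ℤ) ∣ c ∧ (D.m : ℤ) ∣ c := by
  push_cast
  refine ⟨fun h => ⟨(dvd_mul_right _ _).trans h, (dvd_mul_left _ _).trans h⟩, fun h => ?_⟩
  exact IsCoprime.mul_dvd ⟨D.x, -D.z, by linear_combination D.eqn⟩ h.1 h.2

theorem exists_coset {γ : SL(2, ℤ)} (hγ : γ ∈ Gamma0 D.m) (i : Option (Fin D.q)) :
    ∃ j, ∃ g ∈ Gamma0 D.level, D.cosetRep i * γ = g * D.cosetRep j := by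
  haveI := Fact.mk D.hq
  set δ := D.cosetRep i * γ with hδ
  have hm : (D.m : ℤ) ∣ (δ : IMat) 1 0 := mem_Gamma0_iff_dvd.mp
    (mul_mem (mem_Gamma0_iff_dvd.mpr (D.dvd_cosetRep i)) hγ)
  by_cases hC : (D.q : ℤ) ∣ (δ : IMat) 1 0
  · exact ⟨none, δ, mem_Gamma0_iff_dvd.mpr (D.level_dvd_iff.mpr ⟨hC, hm⟩), by simp [cosetRep]⟩
  · rw [← ZMod.intCast_zmod_eq_zero_iff_dvd] at hC
    set t : ZMod D.q := (((δ : IMat) 1 1 : ℤ) : ZMod D.q) / (((δ : IMat) 1 0 : ℤ) : ZMod D.q)
    set j : Fin D.q := ⟨t.val, t.val_lt⟩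
    refine ⟨some j, δ * (D.cosetRep (some j))⁻¹, mem_Gamma0_iff_dvd.mpr ?_,
      (inv_mul_cancel_right _ _).symm⟩
    have he : ((δ * (D.cosetRep (some j))⁻¹ : SL(2, ℤ)) : IMat) 1 0 =
        (δ : IMat) 1 0 * (D.m * D.z * (j : ℕ) + D.q) - (δ : IMat) 1 1 * (D.m * D.z) := by
      rw [Matrix.SpecialLinearGroup.coe_mul, Matrix.SpecialLinearGroup.coe_inv, cosetRep,
        Matrix.adjugate_fin_two_of, Matrix.mul_apply, Fin.sum_univ_two]
      simp
      ring
    rw [he, level_dvd_iff]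
    refine ⟨?_, dvd_sub (hm.mul_right _) ((dvd_mul_right _ _).mul_left _)⟩
    rw [← ZMod.intCast_zmod_eq_zero_iff_dvd]
    push_cast
    rw [show ((j : ℕ) : ZMod D.q) = t from ZMod.natCast_zmod_val t, ZMod.natCast_self, add_zero]
    simp only [t]
    field_simp
    ring

theorem cosetRep_injective {i j : Option (Fin D.q)}
    (h : D.cosetRep i * (D.cosetRep j)⁻¹ ∈ Gamma0 D.level) : i = j := by
  haveI := Fact.mk D.hq
  have hq := (D.level_dvd_iff.mp (mem_Gamma0_iff_dvd.mp h)).1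
  rw [Matrix.SpecialLinearGroup.coe_mul, Matrix.SpecialLinearGroup.coe_inv] at hq
  cases i with
  | none =>
    cases j with
    | none => rfl
    | some b =>
      simp [cosetRep, Matrix.adjugate_fin_two_of] at hq
      exact absurd hq D.not_dvd_mz
  | some a =>
    cases j with
    | none =>
      simp [cosetRep] at hq
      exact absurd hq D.not_dvd_mz
    | some b =>
      simp [cosetRep, Matrix.adjugate_fin_two_of] at hq
      have hmz : ((D.m : ZMod D.q)) * (D.z : ZMod D.q) ≠ 0 := by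
        have := mt (ZMod.intCast_zmod_eq_zero_iff_dvd _ _).mp D.not_dvd_mz
        push_cast at this
        exact this
      rw [← ZMod.intCast_zmod_eq_zero_iff_dvd] at hq
      push_cast at hq
      rw [ZMod.natCast_self] at hq
      have key : ((a : ℕ) : ZMod D.q) = ((b : ℕ) : ZMod D.q) := by
        refine mul_left_cancel₀ (mul_ne_zero hmz hmz) ?_
        linear_combination -hq
      have := congrArg ZMod.val key
      rw [ZMod.val_cast_of_lt a.2, ZMod.val_cast_of_lt b.2] at this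
      rw [Fin.ext this]

/-- The trace to the lower level. -/
theorem exists_trace (f : CuspForm (Gamma0 D.level) 2) :
    ∃ t : CuspForm (Gamma0 D.m) 2,
      ⇑t = ⇑(f + CuspForm.heckeULin 2 (dvd_mul_right D.q D.m) (D.op f)) := by
  have hsum : ⇑(f + CuspForm.heckeULin 2 (dvd_mul_right D.q D.m) (D.op f)) =
      ∑ i, ⇑f ∣[(2 : ℤ)] D.cosetRep i := by
    rw [Fintype.sum_option, FunLike.coe_add, CuspForm.coe_heckeULin_apply, heckeU_def,
      ← Fin.sum_univ_eq_sum_range (fun j => ⇑(D.op f) ∣[(2 : ℤ)] heckeMatrix D.q j)]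
    congr 1
    · simp [cosetRep]
    refine Finset.sum_congr rfl fun j _ => ?_
    have he : D.mat * !![1, ((j : ℕ) : ℤ); 0, (D.q : ℤ)] =
        (D.cosetRep (some j) : IMat) * !![(D.q : ℤ), 0; 0, (D.q : ℤ)] := by
      ext a b
      fin_cases a <;> fin_cases b <;> simp [mat, cosetRep, Matrix.mul_apply, Fin.sum_univ_two] <;>
        ring
    rw [op, coe_cuspSlash, heckeMatrix_eq_intGL D.hq.ne_zero, ← SlashAction.slash_mul,
      ← intGL_mul D.det_mat_pos.ne' (by simp [Matrix.det_fin_two, D.hq.ne_zero]), he,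
      intGL_mul (by rw [(D.cosetRep (some j)).det_coe]; exact one_ne_zero)
        (by simp [Matrix.det_fin_two, D.hq.ne_zero]), SlashAction.slash_mul, slash_intGL_coe,
      slash_scalar _ _ D.hq.ne_zero]
  set F := f + CuspForm.heckeULin 2 (dvd_mul_right D.q D.m) (D.op f)
  refine ⟨mkCusp ⇑F (fun γ hγ => ?_) (CuspFormClass.holo F) (fun c hc =>
    CuspFormClass.zero_at_cusps F (by rwa [Subgroup.IsArithmetic.isCusp_iff_isCusp_SL2Z])), rfl⟩
  rw [hsum, SlashAction.sum_slash]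
  choose e g hg he using fun i => D.exists_coset hγ i
  have hinj : Function.Injective e := fun i j hij => D.cosetRep_injective (by
    have h1 : D.cosetRep i = g i * D.cosetRep (e i) * γ⁻¹ := by
      rw [← he i, mul_inv_cancel_right]
    have h2 : D.cosetRep j = g j * D.cosetRep (e j) * γ⁻¹ := by
      rw [← he j, mul_inv_cancel_right]
    rw [h1, h2, hij, mul_inv_rev, mul_inv_rev, inv_inv]
    simp only [mul_assoc, inv_mul_cancel_left, mul_inv_cancel_left]
    exact mul_mem (hg i) (inv_mem (hg j)))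
  rw [← Equiv.sum_comp (Equiv.ofBijective e hinj.bijective_of_finite)
    (fun i => ⇑f ∣[(2 : ℤ)] D.cosetRep i)]
  refine Finset.sum_congr rfl fun i _ => ?_
  rw [Equiv.ofBijective_apply, ← SlashAction.slash_mul, he i, SlashAction.slash_mul,
    slash_Gamma0 f (hg i)]

theorem trace_eq_zero {a : ℕ → ℂ} {X : Set ℕ} (hX : ∀ ℓ, ℓ ∣ D.level → ℓ ∈ X)
    (h0 : goodSpace D.m X a = ⊥) {f : CuspForm (Gamma0 D.level) 2}
    (hf : f ∈ goodSpace D.level X a) :
    f + CuspForm.heckeULin 2 (dvd_mul_right D.q D.m) (D.op f) = 0 := by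
  set F := f + CuspForm.heckeULin 2 (dvd_mul_right D.q D.m) (D.op f) with hF
  have hFmem : F ∈ goodSpace D.level X a := by
    intro ℓ hℓ hℓM hℓX
    rw [hF, map_add, hf ℓ hℓ hℓM hℓX, smul_add, ← map_smul, ← map_smul, ← hf ℓ hℓ hℓM hℓX,
      ← D.op_comm hℓ hℓM]
    congr 1
    exact LinearMap.congr_fun
      (CuspForm.heckeTLin_heckeULin_comm 2 hℓ hℓM (dvd_mul_right D.q D.m)) (D.op f)
  obtain ⟨t, ht⟩ := D.exists_trace f
  have htmem : t ∈ goodSpace D.m X a := by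
    intro ℓ hℓ hℓm hℓX
    have hℓM : ¬ ℓ ∣ D.level := fun hd => hℓX (hX ℓ hd)
    refine DFunLike.coe_injective ?_
    have h1 := congrArg (fun y : CuspForm (Gamma0 D.level) 2 => ⇑y) (hFmem ℓ hℓ hℓM hℓX)
    simp only [CuspForm.coe_heckeTLin_apply, FunLike.coe_smul] at h1 ⊢
    rw [ht]
    exact h1
  rw [h0, Submodule.mem_bot] at htmem
  refine DFunLike.coe_injective ?_
  rw [← ht, htmem]
  rfl

/-- The square of the coefficient at an exact prime not in a lower level is one. -/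
theorem coeff_sq_eq_one {f : CuspForm (Gamma0 D.level) 2} (hf : f.IsNormalizedEigenform)
    (h0 : goodSpace D.m {ℓ | ℓ ∣ D.level} (fun ℓ => qCoeff ⇑f ℓ) = ⊥) :
    qCoeff ⇑f D.q ^ 2 = 1 ∧ D.op f = -qCoeff ⇑f D.q • f := by
  set a := qCoeff ⇑f D.q
  have hU := eigen_heckeULin hf D.hq (dvd_mul_right D.q D.m)
  have hX : ∀ ℓ, ℓ ∣ D.level → ℓ ∈ {ℓ : ℕ | ℓ ∣ D.level} := fun _ h => h
  have hmem : D.op f ∈ goodSpace D.level {ℓ | ℓ ∣ D.level} (fun ℓ => qCoeff ⇑f ℓ) :=
    fun ℓ hℓ hℓM _ => by rw [op_comm, eigen_heckeTLin hf hℓ hℓM, map_smul]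
  have h1 := D.trace_eq_zero hX h0 hmem
  rw [op_op, hU] at h1
  have hop : D.op f = -a • f := by
    linear_combination (norm := module) h1
  refine ⟨?_, hop⟩
  have h2 := D.op_op f
  rw [hop, map_smul, hop, smul_smul] at h2
  have h3 : (-a * -a - 1) • f = 0 := by rw [sub_smul, one_smul, h2, sub_self]
  have h4 := (smul_eq_zero.mp h3).resolve_right hf.ne_zero
  linear_combination h4

end ALData

/-- For an eigenform not coming from level `M / q`, with `q` exactly dividing `M`. -/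
theorem qCoeff_sq_eq_one_of_not_occursAt {M q : ℕ} [NeZero M] {f : CuspForm (Gamma0 M) 2}
    (hf : f.IsNormalizedEigenform) (hq : q.Prime) (hqM : q ∣ M) (hq2 : ¬ q ^ 2 ∣ M)
    (hno : ¬ CuspForm.GoodEigensystemOccursAt f (M / q)) : qCoeff ⇑f q ^ 2 = 1 := by
  obtain ⟨m, rfl⟩ := hqM
  rw [Nat.mul_div_cancel_left _ hq.pos] at hno
  have hqm : ¬ q ∣ m := fun h => hq2 (by rw [sq]; exact mul_dvd_mul_left q h)
  obtain ⟨D, rfl, rfl⟩ := exists_alData hq
    (Nat.pos_of_ne_zero fun h => NeZero.ne (q * m) (by simp [h])) hqm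
  refine (D.coeff_sq_eq_one hf ?_).1
  by_contra h
  obtain ⟨g, hg, hgℓ⟩ := exists_eigenform_of_goodSpace h
  exact hno ⟨g, hg, fun ℓ hℓ hℓN => hgℓ ℓ hℓ (fun hd => hℓN (dvd_mul_of_dvd_right hd _)) hℓN⟩

/-- For an eigenform not coming from level `M / q`, with `q ^ 2` dividing `M`. -/
theorem qCoeff_eq_zero_of_not_occursAt {M q : ℕ} [NeZero M] {f : CuspForm (Gamma0 M) 2}
    (hf : f.IsNormalizedEigenform) (hq : q.Prime) (hq2 : q ^ 2 ∣ M)
    (hno : ¬ CuspForm.GoodEigensystemOccursAt f (M / q)) : qCoeff ⇑f q = 0 := by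
  have hqM : q ∣ M := (dvd_pow_self q two_ne_zero).trans hq2
  obtain ⟨m, rfl⟩ := hqM
  rw [Nat.mul_div_cancel_left _ hq.pos] at hno
  haveI : NeZero m := ⟨fun h => NeZero.ne (q * m) (by simp [h])⟩
  have hqm : q ∣ m := by
    rw [sq] at hq2
    exact Nat.dvd_of_mul_dvd_mul_left hq.pos hq2
  obtain ⟨g, hg⟩ := exists_lower_heckeU hq.ne_zero hqm dvd_rfl f
  by_contra ha
  have hgf : ⇑g = qCoeff ⇑f q • ⇑f := by
    rw [hg, ← CuspForm.coe_heckeULin_apply 2 (dvd_mul_right q m),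
      eigen_heckeULin hf hq (dvd_mul_right q m), FunLike.coe_smul]
  have hmem : g ∈ goodSpace m {ℓ | ℓ ∣ q * m} (fun ℓ => qCoeff ⇑f ℓ) := by
    intro ℓ hℓ hℓm hℓX
    refine DFunLike.coe_injective ?_
    rw [CuspForm.coe_heckeTLin_apply, FunLike.coe_smul, hgf, heckeT_smul, smul_comm,
      ← CuspForm.coe_heckeTLin_apply 2 hℓ hℓX, eigen_heckeTLin hf hℓ hℓX, FunLike.coe_smul]
  have hne : g ≠ 0 := fun h0 => by
    have : (0 : ℍ → ℂ) = qCoeff ⇑f q • ⇑f := by rw [← hgf, h0]; rfl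
    exact hf.ne_zero (DFunLike.coe_injective ((smul_eq_zero.mp this.symm).resolve_left ha))
  have hbot : goodSpace m {ℓ | ℓ ∣ q * m} (fun ℓ => qCoeff ⇑f ℓ) ≠ ⊥ := fun h =>
    hne (by rw [h, Submodule.mem_bot] at hmem; exact hmem)
  obtain ⟨g', hg', hgℓ⟩ := exists_eigenform_of_goodSpace hbot
  exact hno ⟨g', hg', fun ℓ hℓ hℓN => hgℓ ℓ hℓ (fun hd => hℓN (dvd_mul_of_dvd_right hd _)) hℓN⟩

/-- The bad coefficients of a newform. -/
theorem newformBadPrimeCoeff (N : ℕ) [NeZero N] : CuspForm.NewformBadPrimeCoeff N :=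
  fun f hf _ hq hqN =>
    ⟨fun h => qCoeff_sq_eq_one_of_not_occursAt hf.1 hq hqN h
      (hf.isNewformAt hq hqN (NeZero.ne N)).2.2,
    fun h => qCoeff_eq_zero_of_not_occursAt hf.1 hq h
      (hf.isNewformAt hq hqN (NeZero.ne N)).2.2⟩

end Fermat.Agent.Newform
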